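import Fermat.Agent.FrobTrace.Quadratic
import Fermat.Agent.LocalEC.Galois
import Fermat.Agent.Frobenius.Exists
import Fermat.Prelude.Def_EllipticCurve_FrobeniusTrace
import Fermat.Prelude.Def_FLTPrelim_Modularity

/-!
Frobenius elements at good primes act on `E[p]` with trace `a_ℓ` and determinant `ℓ`.
-/

set_option autoImplicit false

noncomputable section

open scoped Classical WeierstrassCurve.Affine Pointwise
open WeierstrassCurve WeierstrassCurve.Affine WeierstrassCurve.Affine.Point
open IsLocalRing Polynomial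

namespace FLTAgent.FrobTrace

local notation "QQb" => AlgebraicClosure ℚ
local notation "ZB" => integralClosure ℤ (AlgebraicClosure ℚ)

/-- The residue field of a valuation subring of an algebraically closed field is algebraically
closed. -/
lemma isAlgClosed_residueField {L : Type*} [Field L] [IsAlgClosed L] (A : ValuationSubring L) :
    IsAlgClosed (ResidueField A) := by
  refine IsAlgClosed.of_exists_root _ fun f hf hirr ↦ ?_
  have hlift : f ∈ Polynomial.lifts (residue A) :=
    (Polynomial.lifts_iff_coeff_lifts f).mpr fun n ↦ residue_surjective _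
  obtain ⟨g, hg, hdeg, hgm⟩ := Polynomial.lifts_and_degree_eq_and_monic hlift hf
  obtain ⟨x, hx⟩ := IsAlgClosed.exists_aeval_eq_zero L g
    (by rw [hdeg]; exact hirr.degree_pos.ne')
  have hint : IsIntegral A x := ⟨g, hgm, hx⟩
  obtain ⟨a, ha⟩ := IsIntegrallyClosed.isIntegral_iff.mp hint
  refine ⟨residue A a, ?_⟩
  rw [← hg, eval_map, eval₂_at_apply, show g.eval a = 0 from ?_, _root_.map_zero]
  refine Subtype.coe_injective ?_
  rw [← ha, aeval_algebraMap_apply_eq_algebraMap_eval] at hx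
  exact hx

variable {A : ValuationSubring (AlgebraicClosure ℚ)} {ℓ : ℕ} [hℓ : Fact ℓ.Prime]

lemma charP_residueField (hA : A.LiesOverPrime ℓ) : CharP (ResidueField A) ℓ := by
  refine (CharP.charP_iff_prime_eq_zero hℓ.out).mpr ?_
  rw [← map_natCast (residue A), LocalEC.residue_eq_zero_iff_val_lt_one]
  simpa using A.mem_nonunits_iff.mp hA

lemma isAlgebraic_residueField (hA : A.LiesOverPrime ℓ) :
    haveI := charP_residueField hA
    letI := ZMod.algebra (ResidueField A) ℓ
    Algebra.IsAlgebraic (ZMod ℓ) (ResidueField A) := by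
  haveI := charP_residueField hA
  letI := ZMod.algebra (ResidueField A) ℓ
  refine ⟨fun z ↦ ?_⟩
  obtain ⟨⟨x, hx⟩, rfl⟩ := residue_surjective z
  obtain ⟨s, b, hs, hsb⟩ := Frobenius.exists_mul_eq A hx
  let ι : ZB →+* A := (ZB).val.toRingHom.codRestrict A.toSubring (Frobenius.integralClosure_le A)
  have halg : ∀ c : ZB, IsAlgebraic (ZMod ℓ) (residue A (ι c)) := fun c ↦ by
    have h : _root_.IsIntegral ℤ (residue A (ι c)) :=
      map_isIntegral_int ((residue A).comp ι) (Algebra.IsIntegral.isIntegral (R := ℤ) c)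
    obtain ⟨g, hg, hg0⟩ := h
    refine ⟨g.map (Int.castRingHom (ZMod ℓ)), (hg.map _).ne_zero, ?_⟩
    rw [aeval_def, eval₂_map, RingHom.ext_int
      ((algebraMap (ZMod ℓ) (ResidueField A)).comp (Int.castRingHom (ZMod ℓ)))
      (algebraMap ℤ (ResidueField A))]
    exact hg0
  have hs0 : residue A (ι s) ≠ 0 := fun h ↦ hs ((residue_eq_zero_iff _).mp h)
  have hb : residue A (ι b) = residue A (ι s) * residue A ⟨x, hx⟩ := by
    rw [← map_mul]; exact congrArg _ (Subtype.ext hsb.symm)
  rw [show residue A ⟨x, hx⟩ = residue A (ι b) * (residue A (ι s))⁻¹ by rw [hb]; field_simp]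
  exact (halg b).mul (halg s).inv

/-- Points on equal curves. -/
def castPoint {K : Type*} [Field K] {V V' : WeierstrassCurve.Affine K} (h : V = V') :
    V.Point ≃+ V'.Point := h ▸ AddEquiv.refl _

lemma castPoint_some {K : Type*} [Field K] {V V' : WeierstrassCurve.Affine K} (h : V = V')
    {x y : K} (hxy : V.Nonsingular x y) :
    castPoint h (Point.some x y hxy) = Point.some x y (h ▸ hxy) := by
  subst h; rfl

variable (W : WeierstrassCurve ℤ)

/-- The curve over `ℚ̄`. -/
abbrev barCurve : WeierstrassCurve.Affine (AlgebraicClosure ℚ) :=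
  (W.map (Int.castRingHom ℚ))⁄(AlgebraicClosure ℚ)

lemma intCoeff_barCurve (A : ValuationSubring (AlgebraicClosure ℚ)) :
    LocalEC.IntCoeff A (barCurve W) := by
  constructor <;> simp [WeierstrassCurve.map]

lemma Δ_barCurve : (barCurve W).Δ = (W.Δ : AlgebraicClosure ℚ) := by
  change ((W.map (Int.castRingHom ℚ)).map (algebraMap ℚ QQb)).Δ = _
  rw [WeierstrassCurve.map_Δ, WeierstrassCurve.map_Δ]
  simp

variable {W}

lemma isElliptic_reductionMod (hgood : W.IsGoodPrimeFor ℓ) :
    (W.reductionMod ℓ).IsElliptic := by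
  refine ⟨?_⟩
  rw [WeierstrassCurve.reductionMod, WeierstrassCurve.map_Δ, isUnit_iff_ne_zero]
  change (W.Δ : ZMod ℓ) ≠ 0
  rwa [Ne, ZMod.intCast_zmod_eq_zero_iff_dvd]

variable {p : ℕ} [hp : Fact p.Prime] {τ : AlgebraicClosure ℚ ≃ₐ[ℚ] AlgebraicClosure ℚ}

/-- Trace and determinant of a Frobenius element at a good prime. -/
theorem trace_det_frobenius (hgood : W.IsGoodPrimeFor ℓ) (hne : p ≠ ℓ)
    (hA : A.LiesOverPrime ℓ) (hτ : A.IsFrobeniusAt τ ℓ) :
    LinearMap.trace (ZMod p) _
        (galoisRepModuleEnd (S := ℚ) (K := AlgebraicClosure ℚ) (W.map (Int.castRingHom ℚ)) p τ) =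
      (W.apOfModel ℓ : ZMod p) ∧
    LinearMap.det
        (galoisRepModuleEnd (S := ℚ) (K := AlgebraicClosure ℚ) (W.map (Int.castRingHom ℚ)) p τ) =
      (ℓ : ZMod p) := by
  haveI := charP_residueField hA
  letI : Algebra (ZMod ℓ) (ResidueField A) := ZMod.algebra (ResidueField A) ℓ
  haveI := isAlgebraic_residueField hA
  haveI := isAlgClosed_residueField A
  haveI := isElliptic_reductionMod hgood
  set WL := barCurve W
  have hW := intCoeff_barCurve W A
  have hΔ : A.valuation WL.Δ = 1 := by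
    rw [Δ_barCurve]; exact LocalEC.val_intCast_eq_one hA hℓ.out hgood
  have hEq : hW.redCurve = ((W.reductionMod ℓ)⁄(ResidueField A)) := by
    have key : ∀ (n : ℤ) (a : A), (a : QQb) = (n : QQb) → residue A a = (n : ResidueField A) := by
      intro n a h
      rw [show a = (n : A) from Subtype.ext (by simpa using h), map_intCast]
    ext <;> simp only [LocalEC.IntCoeff.redCurve, LocalEC.IntCoeff.model,
        WeierstrassCurve.reductionMod, WeierstrassCurve.baseChange, WeierstrassCurve.map,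
        eq_intCast, map_intCast] <;>
      exact key _ _ (by simp [WL, barCurve, WeierstrassCurve.map])
  haveI : WL.IsElliptic := ⟨isUnit_iff_ne_zero.mpr fun h ↦ by simp [h] at hΔ⟩
  have hpF : (p : ZMod ℓ) ≠ 0 := by
    rw [Ne, ZMod.natCast_eq_zero_iff]
    exact fun h ↦ hne ((Nat.prime_dvd_prime_iff_eq hℓ.out hp.out).mp h).symm
  have hpv : A.valuation (p : QQb) = 1 :=
    LocalEC.val_natCast_eq_one hA hℓ.out
      (fun h ↦ hne ((Nat.prime_dvd_prime_iff_eq hℓ.out hp.out).mp h).symm)
  set V := Submodule.torsionBy ℤ ((W.map (Int.castRingHom ℚ))⁄(AlgebraicClosure ℚ)).Point p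
  set V' := Submodule.torsionBy ℤ ((W.reductionMod ℓ)⁄(ResidueField A)).Point p
  -- reduction of torsion
  let Φ : V →+ ((W.reductionMod ℓ)⁄(ResidueField A)).Point :=
    (castPoint hEq).toAddMonoidHom.comp ((LocalEC.redHom hW).comp
      ((V.subtype.toAddMonoidHom).codRestrict (LocalEC.e0Subgroup hW)
        fun P ↦ LocalEC.inE0_of_val_disc hW hΔ _))
  have hΦ : ∀ P : V, Φ P = castPoint hEq (LocalEC.red hW (P : WL.Point)) := fun P ↦ rfl
  have hmem : ∀ P : V, Φ P ∈ V' := fun P ↦ Torsion.mem_torsionBy_iff_nsmul.mpr (by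
    rw [← map_nsmul, show p • P = 0 from Subtype.ext (by
      simpa using Torsion.mem_torsionBy_iff_nsmul.mp P.2), _root_.map_zero])
  let e₀ : V →ₗ[ZMod p] V' :=
    AddMonoidHom.toZModLinearMap p (Φ.codRestrict V'.toAddSubgroup hmem)
  have hinj : Function.Injective e₀ := by
    refine (injective_iff_map_eq_zero _).mpr fun P hP ↦ ?_
    have h0 : Φ P = 0 := congrArg Subtype.val hP
    rw [hΦ, EmbeddingLike.map_eq_zero_iff] at h0
    have h1 := (LocalEC.inE1_iff_red_eq_zero hW (LocalEC.inE0_of_val_disc hW hΔ _)).mpr h0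
    exact Subtype.ext (LocalEC.eq_zero_of_inE1_of_nsmul hW h1 hpv
      (Torsion.mem_torsionBy_iff_nsmul.mp P.2))
  have hpk : (p : ResidueField A) ≠ 0 := by
    rw [← map_natCast (algebraMap (ZMod ℓ) (ResidueField A))]
    exact (_root_.map_ne_zero _).mpr hpF
  haveI : WeierstrassCurve.IsElliptic ((W.reductionMod ℓ)⁄(ResidueField A)) :=
    Torsion.isElliptic_baseChange
  haveI : WeierstrassCurve.IsElliptic ((W.map (Int.castRingHom ℚ))⁄(AlgebraicClosure ℚ)) :=
    inferInstanceAs WL.IsElliptic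
  have hcard : Nat.card V = Nat.card V' := by
    rw [Torsion.card_torsionBy (Nat.cast_ne_zero.mpr hp.out.ne_zero), Torsion.card_torsionBy hpk]
  haveI : Finite V' := Torsion.finite_torsionBy hpk
  let e : V ≃ₗ[ZMod p] V' :=
    LinearEquiv.ofBijective e₀ ((Nat.bijective_iff_injective_and_card _).mpr ⟨hinj, hcard⟩)
  obtain ⟨hτd, hτres⟩ := hτ
  have hσmem : ∀ z ∈ A, τ z ∈ A := fun z hz ↦
    SetLike.coe_mem ((⟨τ, hτd⟩ : A.decompositionSubgroup ℚ) • (⟨z, hz⟩ : A))
  have hresτ : ∀ (z : QQb) (hz : z ∈ A),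
      residue A ⟨τ z, hσmem z hz⟩ = residue A ⟨z, hz⟩ ^ ℓ := fun z hz ↦ by
    rw [← hτres, ← IsLocalRing.ResidueField.residue_smul]; rfl
  have hinvA : ∀ z, τ z ∈ A → z ∈ A := fun z hz ↦ by
    have h : τ • A = A := MulAction.mem_stabilizer_iff.mp hτd
    rw [← h, ValuationSubring.mem_smul_pointwise_iff_exists] at hz
    obtain ⟨w, hw, hwe⟩ := hz
    exact τ.injective hwe ▸ hw
  have hcomm : ∀ P : V, e (τ • P) = frobTorsion (W.reductionMod ℓ) p (e P) := by
    intro P
    refine Subtype.ext ?_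
    change Φ (τ • P) = frobPt _ _ (Φ P)
    rw [hΦ, hΦ]
    rcases hP : (P : WL.Point) with _ | ⟨x, y, hxy⟩
    · have : ((τ • P : V) : WL.Point) = 0 := by
        change τ • (P : WL.Point) = 0
        rw [hP]; rfl
      rw [this, ← Point.zero_def, LocalEC.red_zero, _root_.map_zero, _root_.map_zero]
    obtain ⟨h', hval⟩ : ∃ h', ((τ • P : V) : WL.Point) = Point.some (τ x) (τ y) h' :=
      ⟨_, by change τ • (P : WL.Point) = _; rw [hP]; rfl⟩
    rw [hval]
    by_cases hx : x ∈ A
    · have hy : y ∈ A := hW.y_mem hxy.1 hx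
      have hns := (LocalEC.inE0_of_val_disc hW hΔ (Point.some x y hxy)).resolve_left
        (fun h ↦ h hx)
      obtain ⟨_, _, hns⟩ := hns
      have hns' : hW.redCurve.Nonsingular (residue A ⟨τ x, hσmem x hx⟩)
          (residue A ⟨τ y, hσmem y hy⟩) :=
        ((LocalEC.inE0_of_val_disc hW hΔ _ :
          LocalEC.InE0 hW (Point.some (τ x) (τ y) h')).resolve_left
            (fun h ↦ h (hσmem x hx))).choose_spec.choose_spec
      rw [LocalEC.red_some hW hx hy hns, LocalEC.red_some hW (hσmem x hx) (hσmem y hy) hns',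
        castPoint_some, castPoint_some, frobPt, Point.map_some, Point.some.injEq]
      simp only [FiniteField.coe_frobeniusAlgHom, ZMod.card]
      exact ⟨hresτ x hx, hresτ y hy⟩
    · have h1 : LocalEC.InE1 A (Point.some x y hxy) := hx
      have h2 : LocalEC.InE1 A (Point.some (τ x) (τ y) h') := fun h ↦ hx (hinvA x h)
      rw [LocalEC.red_of_inE1 hW h1, LocalEC.red_of_inE1 hW h2, _root_.map_zero, _root_.map_zero]
  have hconj : e.toLinearMap ∘ₗ
      galoisRepModuleEnd (S := ℚ) (K := AlgebraicClosure ℚ) (W.map (Int.castRingHom ℚ)) p τ ∘ₗ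
        e.symm.toLinearMap = frobTorsion (W.reductionMod ℓ) p := by
    refine LinearMap.ext fun Q ↦ ?_
    rw [LinearMap.comp_apply, LinearMap.comp_apply, LinearEquiv.coe_coe, LinearEquiv.coe_coe,
      galoisRepModuleEnd_apply, hcomm, e.apply_symm_apply]
  obtain ⟨htr, hdet⟩ := trace_det_frobTorsion (W.reductionMod ℓ) (K := ResidueField A) hpF
  refine ⟨?_, ?_⟩
  · rw [← LinearMap.trace_conj' _ e, LinearEquiv.conj_apply, LinearMap.comp_assoc, hconj, htr]
    rfl
  · rw [← LinearMap.det_conj _ e, hconj, hdet, ZMod.card]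

/-- The characteristic polynomial of a Frobenius element at a good prime. -/
theorem charpoly_frobenius
    (hgood : W.IsGoodPrimeFor ℓ) (hne : p ≠ ℓ) (hA : A.LiesOverPrime ℓ)
    (hτ : A.IsFrobeniusAt τ ℓ) :
    galoisTrace ℚ (W.map (Int.castRingHom ℚ)) p τ = (W.apOfModel ℓ : ZMod p) :=
  (trace_det_frobenius hgood hne hA hτ).1

end FLTAgent.FrobTrace

end
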