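import Fermat.Agent.FrobTrace.Global
import Fermat.Agent.Frobenius.Global
import Fermat.Agent.Torsion.Basic
import Mathlib.NumberTheory.Cyclotomic.CyclotomicCharacter

/-!
The determinant of the Galois action on `E[p]` is the cyclotomic character.
-/

set_option autoImplicit false

noncomputable section

open scoped Classical WeierstrassCurve.Affine Pointwise
open WeierstrassCurve WeierstrassCurve.Affine WeierstrassCurve.Affine.Point
open IsLocalRing

namespace FLTAgent.FrobTrace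

local notation "QQb" => AlgebraicClosure ℚ
local notation "GG" => (AlgebraicClosure ℚ ≃ₐ[ℚ] AlgebraicClosure ℚ)

variable {p : ℕ} [hp : Fact p.Prime]

/-- The cyclotomic character of a Frobenius element away from `p`. -/
theorem cyclotomic_frobenius {A : ValuationSubring (AlgebraicClosure ℚ)} {ℓ : ℕ} [hℓ : Fact ℓ.Prime]
    {τ : AlgebraicClosure ℚ ≃ₐ[ℚ] AlgebraicClosure ℚ} (hne : p ≠ ℓ) (hA : A.LiesOverPrime ℓ)
    (hτ : A.IsFrobeniusAt τ ℓ) [NeZero p]
    (hn : Nat.card (rootsOfUnity p (AlgebraicClosure ℚ)) = p) :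
    ((modularCyclotomicCharacter (AlgebraicClosure ℚ) hn
      (τ : AlgebraicClosure ℚ ≃+* AlgebraicClosure ℚ) : (ZMod p)ˣ) : ZMod p) = (ℓ : ZMod p) := by
  haveI := charP_residueField hA
  obtain ⟨ζ, hζ⟩ := HasEnoughRootsOfUnity.exists_primitiveRoot QQb p
  have hζA : ζ ∈ A := by
    have h : A.valuation ζ ^ p = 1 := by rw [← map_pow, hζ.pow_eq_one, map_one]
    exact LocalEC.mem_of_val_le_one ((pow_le_one_iff hp.out.ne_zero).mp h.le)
  have hpk : (p : ResidueField A) ≠ 0 := by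
    rw [Ne, CharP.cast_eq_zero_iff (ResidueField A) ℓ]
    exact fun h ↦ hne ((Nat.prime_dvd_prime_iff_eq hℓ.out hp.out).mp h).symm
  set z := residue A ⟨ζ, hζA⟩
  have hz : orderOf z = p := by
    have hzp : z ^ p = 1 := by
      rw [← map_pow, ← map_one (residue A)]
      exact congrArg _ (Subtype.ext hζ.pow_eq_one)
    refine orderOf_eq_prime hzp fun h1 ↦ hpk ?_
    have hsum : ∑ j ∈ Finset.range p, (⟨ζ, hζA⟩ : A) ^ j = 0 :=
      Subtype.coe_injective (by simpa using hζ.geom_sum_eq_zero hp.out.one_lt)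
    have h2 := congrArg (residue A) hsum
    rw [map_sum, _root_.map_zero] at h2
    simp only [map_pow, show residue A ⟨ζ, hζA⟩ = 1 from h1, one_pow, Finset.sum_const,
      Finset.card_range, nsmul_eq_mul, mul_one] at h2
    exact h2
  set c := ((modularCyclotomicCharacter QQb hn (τ : QQb ≃+* QQb) : (ZMod p)ˣ) : ZMod p)
  have hspec : τ ζ = ζ ^ c.val := by
    have ht : (hζ.isUnit hp.out.ne_zero).unit ∈ rootsOfUnity p QQb := by
      rw [mem_rootsOfUnity, Units.ext_iff, Units.val_pow_eq_pow_val, IsUnit.unit_spec,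
        hζ.pow_eq_one, Units.val_one]
    exact modularCyclotomicCharacter.spec (L := QQb) (hn := hn) (τ : QQb ≃+* QQb) ht
  obtain ⟨hτd, hτres⟩ := hτ
  have h3 : residue A (⟨ζ, hζA⟩ ^ c.val : A) = z ^ ℓ := by
    rw [← hτres, ← IsLocalRing.ResidueField.residue_smul]
    exact congrArg _ (Subtype.ext hspec.symm)
  have hz' : IsPrimitiveRoot z p := IsPrimitiveRoot.iff_orderOf.mpr hz
  rw [map_pow, pow_eq_pow_mod c.val hz'.pow_eq_one, pow_eq_pow_mod ℓ hz'.pow_eq_one] at h3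
  have h3 := hz'.pow_inj (Nat.mod_lt _ hp.out.pos) (Nat.mod_lt _ hp.out.pos) h3
  rw [← ZMod.natCast_zmod_val c]
  exact (ZMod.natCast_eq_natCast_iff' _ _ _).mpr h3

/-- The determinant on `E[p]` is the cyclotomic character. -/
theorem det_eq_cyclotomic (W : WeierstrassCurve ℤ) (hΔ : W.Δ ≠ 0) [NeZero p]
    (hn : Nat.card (rootsOfUnity p (AlgebraicClosure ℚ)) = p)
    (σ : AlgebraicClosure ℚ ≃ₐ[ℚ] AlgebraicClosure ℚ) :
    LinearMap.det
        (galoisRepModuleEnd (S := ℚ) (K := AlgebraicClosure ℚ) (W.map (Int.castRingHom ℚ)) p σ) =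
      ((modularCyclotomicCharacter (AlgebraicClosure ℚ) hn
        (σ : AlgebraicClosure ℚ ≃+* AlgebraicClosure ℚ) : (ZMod p)ˣ) : ZMod p) := by
  haveI : Algebra.IsAlgebraic ℚ QQb := AlgebraicClosure.isAlgebraic ℚ
  haveI : WeierstrassCurve.IsElliptic (W.map (Int.castRingHom ℚ)) := ⟨by
    rw [WeierstrassCurve.map_Δ]; exact isUnit_iff_ne_zero.mpr (by simpa using hΔ)⟩
  obtain ⟨ζ, hζ⟩ := HasEnoughRootsOfUnity.exists_primitiveRoot QQb p
  haveI := Torsion.finite_torsionBy_rat (W.map (Int.castRingHom ℚ)) hp.out.ne_zero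
  obtain ⟨L₁, hL₁, hfix⟩ := Torsion.exists_finite_level_torsionBy (S := ℚ)
    (W := W.map (Int.castRingHom ℚ)) (K := QQb) (n := p)
  let L₂ := IntermediateField.adjoin ℚ ({ζ} : Set QQb)
  haveI : FiniteDimensional ℚ L₂ :=
    IntermediateField.adjoin.finiteDimensional (Algebra.IsIntegral.isIntegral ζ)
  haveI := hL₁
  obtain ⟨ℓ, A, τ, k, hℓ, hℓS, hA, hτ, hσ⟩ := Frobenius.exists_frobenius_pow_eqOn (L₁ ⊔ L₂) σ
    (insert p W.Δ.natAbs.primeFactors)
  haveI : Fact ℓ.Prime := ⟨hℓ⟩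
  have hne : p ≠ ℓ := fun h ↦ hℓS (by simp [h])
  have hgood : W.IsGoodPrimeFor ℓ := fun h ↦ hℓS (Finset.mem_insert_of_mem
    (Nat.mem_primeFactors.mpr ⟨hℓ, Int.natCast_dvd.mp h, Int.natAbs_ne_zero.mpr hΔ⟩))
  have e1 : galoisRepModuleEnd (S := ℚ) (K := QQb) (W.map (Int.castRingHom ℚ)) p σ =
      galoisRepModuleEnd (S := ℚ) (K := QQb) (W.map (Int.castRingHom ℚ)) p τ ^ k := by
    rw [← map_pow]
    refine LinearMap.ext fun P ↦ ?_
    have h := hfix ((τ ^ k)⁻¹ * σ) (fun x hx ↦ by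
      rw [AlgEquiv.mul_apply, hσ x ((le_sup_left : L₁ ≤ L₁ ⊔ L₂) hx)]
      exact (τ ^ k).symm_apply_apply x) P
    rw [galoisRepModuleEnd_apply, galoisRepModuleEnd_apply]
    conv_rhs => rw [← h, ← mul_smul, mul_inv_cancel_left]
  rw [e1, map_pow, (trace_det_frobenius hgood hne hA hτ).2, ← cyclotomic_frobenius hne hA hτ hn,
    ← Units.val_pow_eq_pow_val, ← map_pow]
  refine congrArg _ (Units.ext (modularCyclotomicCharacter.unique (L := QQb) (hn := hn) _
    fun t ht ↦ ?_)).symm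
  obtain ⟨i, -, hi⟩ := hζ.eq_pow_of_pow_eq_one (by
    have := congrArg Units.val ((mem_rootsOfUnity p t).mp ht)
    simpa using this : (t : QQb) ^ p = 1)
  have hζL : ζ ∈ L₁ ⊔ L₂ :=
    (le_sup_right : L₂ ≤ L₁ ⊔ L₂) (IntermediateField.subset_adjoin ℚ _ rfl)
  have hpw : ∀ (j : ℕ) (x : QQb), ((τ : QQb ≃+* QQb) ^ j) x = (τ ^ j) x := by
    intro j
    induction j with
    | zero => intro x; rfl
    | succ j ih =>
      intro x
      rw [pow_succ, pow_succ, AlgEquiv.mul_apply]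
      exact ih (τ x)
  rw [← modularCyclotomicCharacter.spec (L := QQb) (hn := hn) (σ : QQb ≃+* QQb) ht]
  change ((τ : QQb ≃+* QQb) ^ k) (t : QQb) = σ (t : QQb)
  rw [hpw, ← hi, map_pow, map_pow, hσ ζ hζL]

/-- The characteristic polynomial of a Frobenius element at a good prime. -/
theorem charpoly_eq {W : WeierstrassCurve ℤ} {ℓ : ℕ} [Fact ℓ.Prime]
    {A : ValuationSubring (AlgebraicClosure ℚ)}
    {τ : AlgebraicClosure ℚ ≃ₐ[ℚ] AlgebraicClosure ℚ} (hgood : W.IsGoodPrimeFor ℓ) (hne : p ≠ ℓ)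
    (hA : A.LiesOverPrime ℓ) (hτ : A.IsFrobeniusAt τ ℓ)
    [Module.Finite (ZMod p) (Submodule.torsionBy ℤ
      ((W.map (Int.castRingHom ℚ))⁄(AlgebraicClosure ℚ)).Point p)] :
    LinearMap.charpoly
        (galoisRepModuleEnd (S := ℚ) (K := AlgebraicClosure ℚ) (W.map (Int.castRingHom ℚ)) p τ) =
      Polynomial.X ^ 2 - Polynomial.C (W.apOfModel ℓ : ZMod p) * Polynomial.X +
        Polynomial.C (ℓ : ZMod p) := by
  have hΔ : W.Δ ≠ 0 := fun h ↦ hgood (by rw [h]; exact dvd_zero _)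
  haveI : WeierstrassCurve.IsElliptic (W.map (Int.castRingHom ℚ)) := ⟨by
    rw [WeierstrassCurve.map_Δ]; exact isUnit_iff_ne_zero.mpr (by simpa using hΔ)⟩
  haveI := Torsion.isElliptic_baseChange (K := AlgebraicClosure ℚ)
    (W := W.map (Int.castRingHom ℚ))
  let b := Module.finBasisOfFinrankEq (ZMod p) (Submodule.torsionBy ℤ
    ((W.map (Int.castRingHom ℚ))⁄(AlgebraicClosure ℚ)).Point p)
    (Torsion.finrank_torsionBy (Nat.cast_ne_zero.mpr hp.out.ne_zero))
  obtain ⟨ht, hd⟩ := trace_det_frobenius (p := p) hgood hne hA hτ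
  rw [← LinearMap.charpoly_toMatrix _ b, Matrix.charpoly_fin_two, ← LinearMap.trace_eq_matrix_trace,
    ht, LinearMap.det_toMatrix, hd]

end FLTAgent.FrobTrace

end
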