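import Fermat.Agent.FrobTrace.Red
import Fermat.Prelude.Def_FLTPrelim_Modularity
import Mathlib.FieldTheory.Finite.Basic
import Mathlib.RingTheory.Coprime.Lemmas
import Mathlib.Tactic.LinearCombination

/-!
The x-coordinate of `G - πG` for a generic point `G`: the reduced numerator has degree `#E(F)`.
-/

set_option autoImplicit false

noncomputable section

open Polynomial
open scoped Classical

namespace FLTAgent.FrobTrace

variable {F : Type*} [Field F] [Fintype F] (W : WeierstrassCurve F)

local notation "qq" => Fintype.card F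

/-- The linear coefficient of the equation in `Y`. -/
def sP : F[X] := C W.a₁ * X + C W.a₃

/-- The cubic side of the equation. -/
def fP : F[X] := X ^ 3 + C W.a₂ * X ^ 2 + C W.a₄ * X + C W.a₆

/-- `Y ^ n = powA n + powB n * Y`. -/
def powAB : ℕ → F[X] × F[X]
  | 0 => (1, 0)
  | n + 1 => ((powAB n).2 * fP W, (powAB n).1 - (powAB n).2 * sP W)

local notation "sW" => sP W
local notation "fW" => fP W
/-- The constant part of `Y ^ qq`. -/
abbrev aP : F[X] := (powAB W (Fintype.card F)).1

/-- The linear part of `Y ^ qq`. -/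
abbrev bP : F[X] := (powAB W (Fintype.card F)).2

omit [Fintype F] in
lemma powAB_spec {M : Type*} [CommRing M] [Algebra F M] {r Y : M}
    (h : Y ^ 2 + aeval r sW * Y = aeval r fW) (n : ℕ) :
    Y ^ n = aeval r (powAB W n).1 + aeval r (powAB W n).2 * Y := by
  induction n with
  | zero => simp [powAB]
  | succ n ih =>
    simp only [powAB, pow_succ, map_mul, map_sub]
    linear_combination Y * ih + aeval r (powAB W n).2 * h

omit [Fintype F] in
lemma powAB_norm (n : ℕ) :
    (powAB W n).1 ^ 2 - sW * (powAB W n).1 * (powAB W n).2 - fW * (powAB W n).2 ^ 2 =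
      (-fW) ^ n := by
  induction n with
  | zero => simp [powAB]
  | succ n ih =>
    simp only [powAB, pow_succ (-fW)]
    linear_combination (-fW) * ih

omit [Fintype F] in
lemma natDegree_fP : (fW).natDegree ≤ 3 := by
  simp only [fP]; compute_degree

omit [Fintype F] in
lemma natDegree_sP : (sW).natDegree ≤ 1 := by
  simp only [sP]; compute_degree

omit [Fintype F] in
lemma powAB_degree (n : ℕ) :
    2 * ((powAB W n).1).natDegree ≤ 3 * n ∧
      ((powAB W n).2 = 0 ∨ 2 * ((powAB W n).2).natDegree + 3 ≤ 3 * n) := by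
  induction n with
  | zero => simp [powAB]
  | succ n ih =>
    obtain ⟨hA, hB⟩ := ih
    have hf := natDegree_fP W
    have hs := natDegree_sP W
    simp only [powAB]
    refine ⟨?_, ?_⟩
    · rcases hB with h | h
      · simp [h]
      · have := natDegree_mul_le (p := (powAB W n).2) (q := fW)
        omega
    · rcases Nat.eq_zero_or_pos n with rfl | hn
      · right; simp [powAB]
      · right
        rcases hB with h | h
        · simp only [h, zero_mul, sub_zero]
          omega
        · have h1 := natDegree_mul_le (p := (powAB W n).2) (q := sW)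
          have h2 := natDegree_sub_le (powAB W n).1 ((powAB W n).2 * sW)
          omega

/-- `X ^ qq - X`. -/
def dP (F : Type*) [Field F] [Fintype F] : F[X] := X ^ Fintype.card F - X

/-- The unreduced numerator. -/
def numP : F[X] :=
  -(((aP W) + sW) ^ 2 - sW * ((aP W) + sW) * ((bP W) + 1) - fW * ((bP W) + 1) ^ 2)
    - (C W.a₂ + X + X ^ qq) * dP F ^ 2

lemma neg_fP_pow : (-fW) ^ qq = -((X ^ qq) ^ 3 + C W.a₂ * (X ^ qq) ^ 2 + C W.a₄ * X ^ qq + C W.a₆) := by
  rw [← FiniteField.expand_card]
  simp [fP]

lemma numP_eq : numP W = X ^ (2 * qq + 1) +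
    ((C (2 * W.a₂) * X + X ^ 2) * X ^ qq - C W.a₂ * X ^ 2 - X ^ 3 + fW
      + C W.a₄ * X ^ qq + C W.a₆ - ((aP W) * sW - sW ^ 2 * (bP W) - 2 * (fW * (bP W)))) := by
  have h := powAB_norm W qq
  rw [neg_fP_pow] at h
  have hX : (X : F[X]) ^ (2 * qq + 1) = (X ^ qq) ^ 2 * X := by rw [← pow_mul, mul_comm qq 2, pow_succ]
  rw [numP, dP, hX, map_mul, map_ofNat]
  linear_combination -h

lemma natDegree_numP : (numP W).natDegree = 2 * qq + 1 ∧ numP W ≠ 0 := by
  have hq : 2 ≤ qq := Fintype.one_lt_card
  obtain ⟨hA, hB⟩ : 2 * (aP W).natDegree ≤ 3 * qq ∧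
      ((bP W) = 0 ∨ 2 * (bP W).natDegree + 3 ≤ 3 * qq) := powAB_degree W qq
  have hf := natDegree_fP W
  have hs := natDegree_sP W
  set R := ((C (2 * W.a₂) * X + X ^ 2) * X ^ qq - C W.a₂ * X ^ 2 - X ^ 3 + fW
      + C W.a₄ * X ^ qq + C W.a₆ - ((aP W) * sW - sW ^ 2 * (bP W) - 2 * (fW * (bP W)))) with hR
  have hadd : ∀ {a b : F[X]}, a.natDegree ≤ 2 * qq → b.natDegree ≤ 2 * qq →
      (a + b).natDegree ≤ 2 * qq ∧ (a - b).natDegree ≤ 2 * qq := fun ha hb ↦
    ⟨(natDegree_add_le _ _).trans (max_le ha hb), (natDegree_sub_le _ _).trans (max_le ha hb)⟩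
  have hRdeg : R.natDegree ≤ 2 * qq := by
    refine (hadd (hadd (hadd (hadd (hadd (hadd ?_ ?_).2 ?_).2 ?_).1 ?_).1 ?_).1
      (hadd (hadd ?_ ?_).2 ?_).2).2
    · refine natDegree_mul_le.trans ?_
      have : (C (2 * W.a₂) * X + X ^ 2 : F[X]).natDegree ≤ 2 := by compute_degree
      rw [natDegree_X_pow]
      omega
    · exact (natDegree_C_mul_le _ _).trans (by rw [natDegree_X_pow]; omega)
    · rw [natDegree_X_pow]; omega
    · omega
    · exact (natDegree_C_mul_le _ _).trans (by rw [natDegree_X_pow]; omega)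
    · simp
    · exact natDegree_mul_le.trans (by omega)
    · rcases hB with h | h
      · simp [h]
      · refine natDegree_mul_le.trans ?_
        have := natDegree_pow_le (p := sW) (n := 2)
        omega
    · rcases hB with h | h
      · simp [h]
      · refine natDegree_mul_le.trans ?_
        have := natDegree_mul_le (p := fW) (q := (bP W))
        have h2 : (2 : F[X]).natDegree = 0 := natDegree_natCast 2
        omega
  have hlt : R.degree < (X ^ (2 * qq + 1) : F[X]).degree := by
    rw [degree_X_pow]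
    exact degree_le_natDegree.trans_lt (by exact_mod_cast Nat.lt_succ_of_le hRdeg)
  rw [numP_eq]
  refine ⟨?_, fun h ↦ ?_⟩
  · rw [natDegree_add_eq_left_of_degree_lt hlt, natDegree_X_pow]
  · have := congrArg natDegree h
    rw [natDegree_add_eq_left_of_degree_lt hlt, natDegree_X_pow, natDegree_zero] at this
    omega

/-- The value of the numerator in terms of the coordinates. -/
lemma aeval_numP {M : Type*} [CommRing M] [Algebra F M] {r Y : M}
    (h : Y ^ 2 + aeval r sW * Y = aeval r fW) :
    let u := Y ^ qq + Y + aeval r sW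
    let d := r ^ qq - r
    aeval r (numP W) = u ^ 2 + algebraMap F M W.a₁ * u * d
      - (algebraMap F M W.a₂ + r + r ^ qq) * d ^ 2 := by
  intro u d
  have h' : (-Y - aeval r sW) ^ 2 + aeval r sW * (-Y - aeval r sW) = aeval r fW := by
    linear_combination h
  have e1 := powAB_spec W h qq
  have e2 := powAB_spec W h' qq
  have e3 : (-Y - aeval r sW) ^ qq = -(Y ^ qq) - (algebraMap F M W.a₁ * r ^ qq + algebraMap F M W.a₃) := by
    have := map_sub (FiniteField.frobeniusAlgHom F M) (-Y) (aeval r sW)
    simp only [map_neg, ← aeval_algHom_apply] at this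
    simpa [FiniteField.coe_frobeniusAlgHom, sP] using this
  rw [e3] at e2
  simp only [numP, dP, map_sub, map_neg, map_add, map_mul, map_pow, aeval_X, aeval_C, map_one]
  have e4 : aeval r sW = algebraMap F M W.a₁ * r + algebraMap F M W.a₃ := by simp [sP]
  simp only [u, d]
  generalize algebraMap F M W.a₁ = c1 at *
  generalize algebraMap F M W.a₂ = c2 at *
  generalize algebraMap F M W.a₃ = c3 at *
  generalize aeval r (aP W) = A at *
  generalize aeval r (bP W) = B at *
  generalize aeval r sW = s at *
  generalize aeval r fW = f at *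
  generalize Y ^ qq = Yq at *
  generalize r ^ qq = rq at *
  subst e4
  subst e1
  linear_combination (A + (c1 * r + c3) + (B + 1) * Y) * e2 - (B + 1) ^ 2 * h

variable [W.IsElliptic]

/-- The number of points above `x`. -/
def fibre (x : F) : ℕ := (Finset.univ.filter fun y ↦ W.toAffine.Equation x y).card

omit [Fintype F] [W.IsElliptic] in
lemma equation_iff_eval {x y : F} :
    W.toAffine.Equation x y ↔ y ^ 2 + (sW).eval x * y = (fW).eval x := by
  rw [WeierstrassCurve.Affine.equation_iff']
  simp [sP, fP]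
  constructor <;> intro h <;> linear_combination h

omit W [Fintype F] in
lemma sq_dvd_of_dvd {a b : F[X]} {x : F} (h : (X - C x) ^ 2 ∣ a * b) (ha : a.eval x ≠ 0) :
    (X - C x) ^ 2 ∣ b := by
  refine (IsCoprime.pow_left ?_).dvd_of_dvd_mul_left h
  exact ((irreducible_X_sub_C x).coprime_iff_not_dvd).mpr
    fun hd ↦ ha (dvd_iff_isRoot.mp hd)

omit W in
lemma eq_algebraMap_of_pow_card {M : Type*} [CommRing M] [IsDomain M] [Algebra F M] {y : M}
    (h : y ^ qq = y) : ∃ a : F, algebraMap F M a = y := by
  have hd : dP F = ∏ a : F, (X - C a) := by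
    have hm : (dP F).Monic := by
      rw [dP, sub_eq_add_neg]
      exact monic_X_pow_add (by simpa using Fintype.one_lt_card (α := F))
    have hr : (dP F).roots = Finset.univ.val := FiniteField.roots_X_pow_card_sub_X F
    rw [← prod_multiset_X_sub_C_of_monic_of_roots_card_eq hm (by
      rw [hr, dP, FiniteField.X_pow_card_sub_X_natDegree_eq F Fintype.one_lt_card]; rfl), hr]
    rfl
  have h0 : aeval y (∏ a : F, (X - C a)) = 0 := by rw [← hd]; simp [dP, h]
  rw [map_prod, Finset.prod_eq_zero_iff] at h0
  obtain ⟨a, -, ha⟩ := h0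
  refine ⟨a, ?_⟩
  simp [sub_eq_zero] at ha
  exact ha.symm

set_option maxHeartbeats 1600000 in
-- three cases with long ring normalisations
lemma numP_local (x : F) : fibre W x ≤ 2 ∧ (X - C x) ^ (2 - fibre W x) ∣ numP W ∧
    (0 < fibre W x → ¬ (X - C x) ^ (3 - fibre W x) ∣ numP W) := by
  have hd : (X - C x) ∣ dP F := dvd_iff_isRoot.mpr (by simp [dP, FiniteField.pow_card])
  have hd2 : (X - C x) ^ 2 ∣ (C W.a₂ + X + X ^ qq) * dP F ^ 2 :=
    dvd_mul_of_dvd_right (pow_dvd_pow_of_dvd hd 2) _
  by_cases hex : ∃ y, W.toAffine.Equation x y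
  · obtain ⟨y₀, hy₀⟩ := hex
    set s₀ := (sW).eval x
    have hy := (equation_iff_eval W).mp hy₀
    have hset : (Finset.univ.filter fun y ↦ W.toAffine.Equation x y) = {y₀, -s₀ - y₀} := by
      ext y
      simp only [Finset.mem_filter, Finset.mem_univ, true_and, Finset.mem_insert,
        Finset.mem_singleton, equation_iff_eval]
      constructor
      · intro h
        have : (y - y₀) * (y + y₀ + s₀) = 0 := by linear_combination h - hy
        rcases mul_eq_zero.mp this with h1 | h1
        · exact .inl (sub_eq_zero.mp h1)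
        · exact .inr (by linear_combination h1)
      · rintro (rfl | rfl)
        · exact hy
        · linear_combination hy
    by_cases hy1 : -s₀ - y₀ = y₀
    · have hr : fibre W x = 1 := by rw [fibre, hset, hy1]; simp
      rw [hr]
      have hf0 : (fW).eval x = -(y₀ ^ 2) := by linear_combination -hy - y₀ * hy1
      have hev : ∀ n : ℕ, (powAB W (n + 1)).1.eval x = -(n : F) * y₀ ^ (n + 1) ∧
          (powAB W (n + 1)).2.eval x = ((n : F) + 1) * y₀ ^ n := by
        intro n
        induction n with
        | zero => simp [powAB]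
        | succ n ih =>
          rw [powAB]
          refine ⟨?_, ?_⟩
          · rw [eval_mul, ih.2, hf0]; push_cast; ring
          · rw [eval_sub, eval_mul, ih.1, ih.2]; push_cast
            linear_combination ((n : F) + 1) * y₀ ^ n * hy1
      obtain ⟨m, hm⟩ : ∃ m, qq = m + 1 := ⟨qq - 1, (Nat.succ_pred_eq_of_ne_zero Fintype.card_ne_zero).symm⟩
      have hq0 : ((m : F) + 1) = 0 := by
        rw [← Nat.cast_add_one, ← hm]; exact Nat.cast_card_eq_zero F
      have hB : (bP W).eval x = 0 := by rw [bP, hm, (hev m).2, hq0, zero_mul]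
      have hA : (aP W).eval x = y₀ := by
        rw [aP, hm, (hev m).1, show -(m : F) = 1 by linear_combination -hq0, one_mul,
          ← hm, FiniteField.pow_card]
      set α := (aP W) + sW
      set β := (bP W) + 1
      set γ := α + C y₀ * β
      set h₂ := C (y₀ ^ 2) + sW * C y₀ - fW with hh₂
      have hN : numP W = -(γ * (γ - β * (C (2 * y₀) + sW))) - β ^ 2 * h₂
          - (C W.a₂ + X + X ^ qq) * dP F ^ 2 := by
        simp only [numP, γ, hh₂, map_pow, map_mul, map_ofNat]
        ring
      have hγ : (X - C x) ∣ γ := dvd_iff_isRoot.mpr (by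
        simp only [IsRoot.def, γ, α, β, eval_add, eval_mul, eval_C, eval_one, hA, hB]
        linear_combination -hy1)
      have hh : (X - C x) ∣ h₂ := dvd_iff_isRoot.mpr (by
        simp only [IsRoot.def, hh₂, eval_add, eval_sub, eval_mul, eval_C]
        linear_combination hy)
      have hsq : (X - C x) ^ 2 ∣ γ * (γ - β * (C (2 * y₀) + sW)) := by
        rw [sq]
        refine mul_dvd_mul hγ (dvd_sub hγ (dvd_mul_of_dvd_right (dvd_iff_isRoot.mpr ?_) _))
        simp only [IsRoot.def, eval_add, eval_C]
        linear_combination -hy1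
      refine ⟨by norm_num, ?_, fun _ hdvd ↦ ?_⟩
      · rw [hN, show 2 - 1 = 1 from rfl, pow_one]
        exact dvd_sub (dvd_sub (dvd_neg.mpr ((dvd_pow_self _ two_ne_zero).trans hsq))
          (dvd_mul_of_dvd_right hh _)) ((dvd_pow_self _ two_ne_zero).trans hd2)
      · have h1 : (X - C x) ^ 2 ∣ β ^ 2 * h₂ := by
          have := dvd_sub (dvd_neg.mpr hsq) (dvd_add hdvd hd2)
          rwa [hN, show -(γ * (γ - β * (C (2 * y₀) + sW))) - (-(γ * (γ - β * (C (2 * y₀) + sW))) -
            β ^ 2 * h₂ - (C W.a₂ + X + X ^ qq) * dP F ^ 2 + (C W.a₂ + X + X ^ qq) * dP F ^ 2) =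
            β ^ 2 * h₂ by ring] at this
        obtain ⟨k, hk⟩ := sq_dvd_of_dvd h1 (by simp [β, hB])
        have hder := congrArg (fun g ↦ (derivative g).eval x) hk
        simp [hh₂, sP, fP, derivative_pow] at hder
        have hns := (WeierstrassCurve.Affine.equation_iff_nonsingular.mp hy₀).2
        rw [WeierstrassCurve.Affine.evalEval_polynomialX,
          WeierstrassCurve.Affine.evalEval_polynomialY] at hns
        rcases hns with h | h
        · exact h (by linear_combination hder)
        · refine h ?_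
          simp [s₀, sP] at hy1
          linear_combination -hy1
    · have hr : fibre W x = 2 := by
        rw [fibre, hset, Finset.card_pair (fun h ↦ hy1 h.symm)]
      rw [hr]
      refine ⟨le_rfl, by simp, fun _ hdvd ↦ ?_⟩
      rw [pow_one, dvd_iff_isRoot, IsRoot.def] at hdvd
      have e1 := powAB_spec W (r := x) (Y := y₀) (by simpa [aeval_def] using hy) qq
      have e2 := powAB_spec W (r := x) (Y := -s₀ - y₀)
        (by simp only [aeval_def, Algebra.algebraMap_self, eval₂_id]; linear_combination hy) qq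
      rw [FiniteField.pow_card] at e1 e2
      simp only [aeval_def, Algebra.algebraMap_self, eval₂_id] at e1 e2
      have hne : 2 * y₀ + s₀ ≠ 0 := fun h ↦ hy1 (by linear_combination -h)
      have hB : (bP W).eval x = 1 := by
        have : ((bP W).eval x - 1) * (2 * y₀ + s₀) = 0 := by linear_combination e2 - e1
        exact sub_eq_zero.mp ((mul_eq_zero.mp this).resolve_right hne)
      have hA : (aP W).eval x = 0 := by rw [hB] at e1; linear_combination -e1
      simp [numP, dP, hA, hB, FiniteField.pow_card] at hdvd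
      refine hne (pow_eq_zero_iff two_ne_zero |>.mp (?_ : (2 * y₀ + s₀) ^ 2 = 0))
      linear_combination hdvd + 4 * hy
  · have hr : fibre W x = 0 := by
      rw [fibre, Finset.card_eq_zero, Finset.filter_eq_empty_iff]
      exact fun y _ h ↦ hex ⟨y, h⟩
    rw [hr]
    refine ⟨by norm_num, ?_, fun h ↦ absurd h (lt_irrefl 0)⟩
    simp only [Nat.sub_zero]
    obtain ⟨y, hy⟩ := IsAlgClosed.exists_aeval_eq_zero (AlgebraicClosure F)
      (C 1 * X ^ 2 + C ((sW).eval x) * X + C (-(fW).eval x))
      (by rw [degree_quadratic one_ne_zero]; decide)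
    simp only [map_add, map_mul, map_pow, aeval_X, aeval_C, map_neg, map_one, one_mul] at hy
    set φ := algebraMap F (AlgebraicClosure F)
    have hnF : ∀ a : F, φ a ≠ y := by
      intro a ha
      refine hex ⟨a, (equation_iff_eval W).mpr (φ.injective ?_)⟩
      rw [map_add, map_mul, map_pow, ha]
      linear_combination hy
    have hyq : y ^ qq + y + φ ((sW).eval x) = 0 := by
      have h2 : (y ^ qq) ^ 2 + φ ((sW).eval x) * y ^ qq - φ ((fW).eval x) = 0 := by
        have := congrArg (FiniteField.frobeniusAlgHom F (AlgebraicClosure F)) hy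
        simp only [map_add, map_mul, map_pow, map_neg, map_zero, φ, AlgHom.commutes] at this
        simp only [FiniteField.coe_frobeniusAlgHom] at this
        linear_combination this
      have h3 : (y ^ qq - y) * (y ^ qq + y + φ ((sW).eval x)) = 0 := by linear_combination h2 - hy
      refine (mul_eq_zero.mp h3).resolve_left fun h ↦ ?_
      obtain ⟨a, ha⟩ := eq_algebraMap_of_pow_card (sub_eq_zero.mp h)
      exact hnF a ha
    have e1 := powAB_spec W (r := φ x) (Y := y) (by
      simp only [aeval_algebraMap_apply_eq_algebraMap_eval, φ] at hy ⊢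
      linear_combination hy) qq
    simp only [φ, aeval_algebraMap_apply_eq_algebraMap_eval] at e1
    have h0 : φ (((aP W) + sW).eval x) + φ (((bP W) + 1).eval x) * y = 0 := by
      simp only [eval_add, map_add, eval_one, map_one, φ] at hyq ⊢
      linear_combination hyq - e1
    have hβ : ((bP W) + 1).eval x = 0 := by
      by_contra hne
      refine hnF (-(((aP W) + sW).eval x / ((bP W) + 1).eval x)) ?_
      have : φ (((bP W) + 1).eval x) ≠ 0 := (map_ne_zero φ).mpr hne
      rw [map_neg, map_div₀]
      field_simp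
      linear_combination -h0
    have hα : ((aP W) + sW).eval x = 0 := by
      rw [hβ, map_zero, zero_mul, add_zero, map_eq_zero] at h0
      exact h0
    have ha := dvd_iff_isRoot.mpr (show IsRoot ((aP W) + sW) x from hα)
    have hb := dvd_iff_isRoot.mpr (show IsRoot ((bP W) + 1) x from hβ)
    refine dvd_sub (dvd_neg.mpr (dvd_sub (dvd_sub ?_ ?_) ?_)) hd2
    · exact pow_dvd_pow_of_dvd ha 2
    · rw [sq, mul_assoc]
      exact dvd_mul_of_dvd_right (mul_dvd_mul ha hb) _
    · exact dvd_mul_of_dvd_right (pow_dvd_pow_of_dvd hb 2) _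

lemma card_eq_sum_fibre : W.card = 1 + ∑ x, fibre W x := by
  let e : W.toAffine.Point ≃ Option (Σ x : F, {y : F // W.toAffine.Equation x y}) :=
    { toFun := fun P ↦ match P with
        | .zero => none
        | .some x y h => Option.some ⟨x, y, h.1⟩
      invFun := fun o ↦ match o with
        | none => 0
        | Option.some ⟨x, y, h⟩ =>
          .some x y (WeierstrassCurve.Affine.equation_iff_nonsingular.mp h)
      left_inv := fun P ↦ by rcases P with _ | ⟨x, y, h⟩ <;> rfl
      right_inv := fun o ↦ by rcases o with _ | ⟨x, y, h⟩ <;> rfl }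
  rw [WeierstrassCurve.card, Nat.card_congr e, Nat.card_eq_fintype_card, Fintype.card_option,
    Fintype.card_sigma, add_comm]
  congr 1
  exact Finset.sum_congr rfl fun x _ ↦ Fintype.card_subtype _

/-- The reduced coordinate of `G - πG`. -/
theorem exists_red_numP : ∃ (g : F[X]) (a : Fin 2 → F[X]), IsRed a W.card ∧
    numP W = g * a 0 ∧ dP F ^ 2 = g * a 1 := by
  have hd : dP F = ∏ x : F, (X - C x) := by
    have hm : (dP F).Monic := by
      rw [dP, sub_eq_add_neg]
      exact monic_X_pow_add (by simpa using Fintype.one_lt_card (α := F))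
    have hr : (dP F).roots = Finset.univ.val := FiniteField.roots_X_pow_card_sub_X F
    rw [← prod_multiset_X_sub_C_of_monic_of_roots_card_eq hm (by
      rw [hr, dP, FiniteField.X_pow_card_sub_X_natDegree_eq F Fintype.one_lt_card]; rfl), hr]
    rfl
  set g := ∏ x : F, (X - C x) ^ (2 - fibre W x) with hgdef
  set b := ∏ x : F, (X - C x) ^ fibre W x with hbdef
  have hgb : dP F ^ 2 = g * b := by
    rw [hd, ← Finset.prod_pow, hgdef, hbdef, ← Finset.prod_mul_distrib]
    exact Finset.prod_congr rfl fun x _ ↦ by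
      rw [← pow_add, Nat.sub_add_cancel (numP_local W x).1]
  obtain ⟨a, ha⟩ : g ∣ numP W := by
    refine Finset.prod_dvd_of_coprime (fun x _ y _ hxy ↦ ?_) fun x _ ↦ (numP_local W x).2.1
    exact (isCoprime_X_sub_C_of_isUnit_sub (sub_ne_zero.mpr hxy).isUnit).pow
  have hg0 : g ≠ 0 := Finset.prod_ne_zero_iff.mpr fun x _ ↦ pow_ne_zero _ (X_sub_C_ne_zero x)
  have ha0 : a ≠ 0 := fun h ↦ (natDegree_numP W).2 (by rw [ha, h, mul_zero])
  have hdegprod : ∀ e : F → ℕ, (∏ x : F, (X - C x) ^ e x).natDegree = ∑ x, e x := fun e ↦ by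
    rw [natDegree_prod _ _ fun x _ ↦ pow_ne_zero _ (X_sub_C_ne_zero x)]
    simp
  have hsum : ∑ x, (2 - fibre W x) + ∑ x, fibre W x = 2 * qq := by
    rw [← Finset.sum_add_distrib,
      Finset.sum_congr rfl fun x _ ↦ Nat.sub_add_cancel (numP_local W x).1]
    simp [mul_comm]
  have hadeg : a.natDegree = W.card := by
    have := (natDegree_numP W).1
    rw [ha, natDegree_mul hg0 ha0, hgdef, hdegprod] at this
    rw [card_eq_sum_fibre]
    omega
  refine ⟨g, ![a, b], ⟨fun r h ↦ ?_, fun i ↦ ?_, fun h ↦ ?_⟩, ha, hgb⟩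
  · have hb : aeval r b = 0 := congrFun h 1
    have haa : aeval r a = 0 := congrFun h 0
    rw [hbdef, map_prod, Finset.prod_eq_zero_iff] at hb
    obtain ⟨x, -, hx⟩ := hb
    rw [map_pow, pow_eq_zero_iff'] at hx
    obtain ⟨hx1, hx2⟩ := hx
    simp [sub_eq_zero] at hx1
    rw [hx1, aeval_algebraMap_apply_eq_algebraMap_eval, map_eq_zero] at haa
    refine (numP_local W x).2.2 (Nat.pos_of_ne_zero hx2) ?_
    rw [ha, show 3 - fibre W x = (2 - fibre W x) + 1 by have := (numP_local W x).1; omega,
      pow_succ]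
    exact mul_dvd_mul (Finset.dvd_prod_of_mem _ (Finset.mem_univ x)) (dvd_iff_isRoot.mpr haa)
  · fin_cases i
    · exact hadeg.le
    · change b.natDegree ≤ _
      rw [hbdef, hdegprod, card_eq_sum_fibre]
      omega
  · have : a.coeff W.card = 0 := congrFun h 0
    rw [← hadeg, ← leadingCoeff] at this
    exact ha0 (leadingCoeff_eq_zero.mp this)

end FLTAgent.FrobTrace

end
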