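import Fermat.Agent.FrobTrace.Count
import Fermat.Prelude.Def_FLTPrelim_GaloisRep
import Mathlib.FieldTheory.RatFunc.AsPolynomial
import Mathlib.FieldTheory.IntermediateField.Adjoin.Basic

/-!
The degree form on `m + n π + k π ^ 2`, through the height of x-coordinates over `F(t)`.
-/

set_option autoImplicit false

noncomputable section

open Polynomial
open scoped Classical WeierstrassCurve.Affine IntermediateField
open WeierstrassCurve WeierstrassCurve.Affine WeierstrassCurve.Affine.Point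

namespace FLTAgent.FrobTrace

variable {F : Type*} [Field F] [Fintype F] (W : WeierstrassCurve F)
  {L : Type*} [Field L] [Algebra F L]

local notation "qq" => Fintype.card F

variable (L) in
/-- The Frobenius endomorphism. -/
def frobPt : (W⁄L).Point →+ (W⁄L).Point := Point.map (FiniteField.frobeniusAlgHom F L)

omit [Fintype F] in
lemma xRep_map (σ : L →ₐ[F] L) (P : (W⁄L).Point) :
    (Point.map σ P).xRep = fun i ↦ σ (P.xRep i) := by
  rcases P with _ | ⟨x, y, h⟩ <;> funext i <;> fin_cases i <;>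
    simp [Point.map_zero, Point.map_some, ← Point.zero_def]

lemma map_frobPt (σ : L →ₐ[F] L) (P : (W⁄L).Point) :
    Point.map σ (frobPt W L P) = frobPt W L (Point.map σ P) := by
  rw [frobPt, Point.map_map, Point.map_map]
  congr 2
  exact AlgHom.ext fun x ↦ by simp [FiniteField.coe_frobeniusAlgHom]

/-- The combination `a + b π + c π ^ 2` at a point. -/
def comb (a b c : ℤ) (P : (W⁄L).Point) : (W⁄L).Point :=
  a • P + b • frobPt W L P + c • frobPt W L (frobPt W L P)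

lemma comb_add (a b c : ℤ) (P Q : (W⁄L).Point) :
    comb W a b c (P + Q) = comb W a b c P + comb W a b c Q := by
  simp only [comb, map_add, smul_add]; abel

lemma comb_neg (a b c : ℤ) (P : (W⁄L).Point) : comb W a b c (-P) = -comb W a b c P := by
  simp only [comb, map_neg, smul_neg]; abel

lemma map_comb (σ : L →ₐ[F] L) (a b c : ℤ) (P : (W⁄L).Point) :
    Point.map σ (comb W a b c P) = comb W a b c (Point.map σ P) := by
  simp only [comb, map_add, map_zsmul, map_frobPt]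

variable (t y : L)

/-- Coordinates in `F(t) + F(t) y`, with negation matching conjugation. -/
def IsGoodXY (x Y : L) : Prop :=
  x ∈ F⟮t⟯ ∧ ∃ c ∈ F⟮t⟯, ∃ e ∈ F⟮t⟯, Y = c + e * y ∧
    2 * c - e * (algebraMap F L W.a₁ * t + algebraMap F L W.a₃) =
      -(algebraMap F L W.a₁ * x + algebraMap F L W.a₃)

/-- Points defined over `F(t, y)` on which conjugation is negation. -/
def IsGood : (W⁄L).Point → Prop
  | .zero => True
  | .some x Y _ => IsGoodXY W t y x Y

variable {W t y}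

omit [Fintype F] in
lemma isGood_neg {P : (W⁄L).Point} (h : IsGood W t y P) : IsGood W t y (-P) := by
  rcases P with _ | ⟨x, Y, hP⟩
  · exact h
  · obtain ⟨hx, c, hc, e, he, hY, hrel⟩ := h
    rw [neg_some]
    refine ⟨hx, -c - algebraMap F L W.a₁ * x - algebraMap F L W.a₃,
      sub_mem (sub_mem (neg_mem hc) (mul_mem (IntermediateField.algebraMap_mem _ _) hx))
        (IntermediateField.algebraMap_mem _ _), -e, neg_mem he, ?_, ?_⟩
    · simp [negY, WeierstrassCurve.map, hY]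
      ring
    · linear_combination -hrel

variable (hG : (W⁄L).Nonsingular t y)
include hG

omit [Fintype F] in
lemma equationG : y ^ 2 + (algebraMap F L W.a₁ * t + algebraMap F L W.a₃) * y =
    t ^ 3 + algebraMap F L W.a₂ * t ^ 2 + algebraMap F L W.a₄ * t + algebraMap F L W.a₆ := by
  have h := (equation_iff' _ _).mp hG.1
  simp [WeierstrassCurve.map] at h
  linear_combination h

omit [Fintype F] in
/-- The addition formula keeps the good form. -/
lemma isGood_addXY {x₁ x₂ Y₁ l₀ l₁ : L} (h₁ : IsGoodXY W t y x₁ Y₁) (hx₂ : x₂ ∈ F⟮t⟯)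
    (hl₀ : l₀ ∈ F⟮t⟯) (hl₁ : l₁ ∈ F⟮t⟯)
    (hl : 2 * l₀ - l₁ * (algebraMap F L W.a₁ * t + algebraMap F L W.a₃) = -algebraMap F L W.a₁) :
    IsGoodXY W t y ((W⁄L).addX x₁ x₂ (l₀ + l₁ * y))
      ((W⁄L).addY x₁ x₂ Y₁ (l₀ + l₁ * y)) := by
  obtain ⟨hx₁, c, hc, e, he, hY, hrel⟩ := h₁
  have hE := equationG hG
  have hm : ∀ a : F, algebraMap F L a ∈ F⟮t⟯ := IntermediateField.algebraMap_mem _
  have htm : t ∈ F⟮t⟯ := IntermediateField.mem_adjoin_simple_self F t
  set a₁ := algebraMap F L W.a₁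
  set a₂ := algebraMap F L W.a₂
  set a₃ := algebraMap F L W.a₃
  set a₄ := algebraMap F L W.a₄
  set a₆ := algebraMap F L W.a₆
  set x₃ := l₀ ^ 2 + l₁ ^ 2 * (t ^ 3 + a₂ * t ^ 2 + a₄ * t + a₆) + a₁ * l₀ - a₂ - x₁ - x₂
    with hx₃
  have hx₃m : x₃ ∈ F⟮t⟯ := by
    refine sub_mem (sub_mem (sub_mem (add_mem (add_mem (pow_mem hl₀ 2) (mul_mem (pow_mem hl₁ 2)
      (add_mem (add_mem (add_mem (pow_mem htm 3) (mul_mem (hm _) (pow_mem htm 2)))
        (mul_mem (hm _) htm)) (hm _)))) (mul_mem (hm _) hl₀)) (hm _)) hx₁) hx₂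
  have hX : (W⁄L).addX x₁ x₂ (l₀ + l₁ * y) = x₃ := by
    simp [addX, WeierstrassCurve.map, hx₃]
    linear_combination l₁ ^ 2 * hE + l₁ * y * hl
  refine ⟨hX ▸ hx₃m, -l₀ * (x₃ - x₁) - c - a₁ * x₃ - a₃,
    sub_mem (sub_mem (sub_mem (mul_mem (neg_mem hl₀) (sub_mem hx₃m hx₁)) hc)
      (mul_mem (hm _) hx₃m)) (hm _),
    -l₁ * (x₃ - x₁) - e, sub_mem (mul_mem (neg_mem hl₁) (sub_mem hx₃m hx₁)) he, ?_, ?_⟩
  · simp only [addY, negAddY, negY]
    rw [hX, hY]
    simp [WeierstrassCurve.map]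
    ring
  · rw [hX]
    linear_combination -(x₃ - x₁) * hl - hrel

omit [Fintype F] in
lemma isGood_add {P Q : (W⁄L).Point} (hP : IsGood W t y P) (hQ : IsGood W t y Q) :
    IsGood W t y (P + Q) := by
  rcases P with _ | ⟨x₁, Y₁, n₁⟩
  · rw [← Point.zero_def, zero_add]; exact hQ
  rcases Q with _ | ⟨x₂, Y₂, n₂⟩
  · rw [← Point.zero_def, add_zero]; exact hP
  have hE := equationG hG
  have hm : ∀ a : F, algebraMap F L a ∈ F⟮t⟯ := IntermediateField.algebraMap_mem _
  have htm : t ∈ F⟮t⟯ := IntermediateField.mem_adjoin_simple_self F t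
  by_cases hxy : x₁ = x₂ ∧ Y₁ = (W⁄L).negY x₂ Y₂
  · rw [add_of_Y_eq hxy.1 hxy.2]; trivial
  rw [add_some hxy]
  have hP' : IsGoodXY W t y x₁ Y₁ := hP
  obtain ⟨hx₁, c₁, hc₁, e₁, he₁, hY₁, hrel₁⟩ := hP'
  obtain ⟨hx₂, c₂, hc₂, e₂, he₂, hY₂, hrel₂⟩ := (hQ : IsGoodXY W t y x₂ Y₂)
  set a₁ := algebraMap F L W.a₁ with ha₁
  set a₂ := algebraMap F L W.a₂ with ha₂
  set a₃ := algebraMap F L W.a₃ with ha₃
  set a₄ := algebraMap F L W.a₄ with ha₄
  set a₆ := algebraMap F L W.a₆ with ha₆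
  suffices h : ∃ l₀ ∈ F⟮t⟯, ∃ l₁ ∈ F⟮t⟯, 2 * l₀ - l₁ * (a₁ * t + a₃) = -a₁ ∧
      (W⁄L).slope x₁ x₂ Y₁ Y₂ = l₀ + l₁ * y by
    obtain ⟨l₀, h₀, l₁, h₁, hl, hs⟩ := h
    change IsGoodXY W t y _ _
    rw [hs]
    exact isGood_addXY hG hP hx₂ h₀ h₁ hl
  by_cases hx : x₁ = x₂
  · have hY : Y₁ ≠ (W⁄L).negY x₂ Y₂ := fun h ↦ hxy ⟨hx, h⟩
    rw [slope_of_Y_ne hx hY]
    have hYY : Y₁ = Y₂ := (Y_eq_of_X_eq n₁.1 n₂.1 hx).resolve_right hY
    subst hx hYY
    set ν := 3 * x₁ ^ 2 + 2 * a₂ * x₁ + a₄ - a₁ * c₁ with hν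
    set s := a₁ * t + a₃
    set D := s ^ 2 + 4 * (t ^ 3 + a₂ * t ^ 2 + a₄ * t + a₆) with hD
    have hden : Y₁ - (W⁄L).negY x₁ Y₁ = e₁ * (2 * y + s) := by
      simp [negY, WeierstrassCurve.map]
      linear_combination hrel₁ + 2 * hY₁
    have hne : e₁ * (2 * y + s) ≠ 0 := hden ▸ sub_ne_zero.mpr hY
    have hDsq : D = (2 * y + s) ^ 2 := by linear_combination -4 * hE
    have hD0 : D ≠ 0 := hDsq ▸ pow_ne_zero 2 (right_ne_zero_of_mul hne)
    have hsm : s ∈ F⟮t⟯ := add_mem (mul_mem (hm _) htm) (hm _)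
    have h2m : ∀ n : ℕ, (n : L) ∈ F⟮t⟯ := fun n ↦ natCast_mem _ n
    have hνm : ν ∈ F⟮t⟯ := sub_mem (add_mem (add_mem (mul_mem (h2m 3) (pow_mem hx₁ 2))
      (mul_mem (mul_mem (h2m 2) (hm _)) hx₁)) (hm _)) (mul_mem (hm _) hc₁)
    have hfm : t ^ 3 + a₂ * t ^ 2 + a₄ * t + a₆ ∈ F⟮t⟯ :=
      add_mem (add_mem (add_mem (pow_mem htm 3) (mul_mem (hm _) (pow_mem htm 2)))
        (mul_mem (hm _) htm)) (hm _)
    have hDm : D ∈ F⟮t⟯ := add_mem (pow_mem hsm 2) (mul_mem (h2m 4) hfm)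
    refine ⟨(ν * s - 2 * a₁ * e₁ * (t ^ 3 + a₂ * t ^ 2 + a₄ * t + a₆)) / (e₁ * D),
      div_mem (sub_mem (mul_mem hνm hsm) (mul_mem (mul_mem (mul_mem (h2m 2) (hm _)) he₁) hfm))
        (mul_mem he₁ hDm), (2 * ν + a₁ * e₁ * s) / (e₁ * D),
      div_mem (add_mem (mul_mem (h2m 2) hνm) (mul_mem (mul_mem (hm _) he₁) hsm))
        (mul_mem he₁ hDm), ?_, ?_⟩
    · have he0 : e₁ ≠ 0 := left_ne_zero_of_mul hne
      field_simp
      rw [hD]
      ring
    · rw [hden]
      have he0 : e₁ ≠ 0 := left_ne_zero_of_mul hne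
      rw [show (3 * x₁ ^ 2 + 2 * (W⁄L).a₂ * x₁ + (W⁄L).a₄ - (W⁄L).a₁ * Y₁) =
        ν - a₁ * e₁ * y by simp [WeierstrassCurve.map, hν, hY₁, ha₁, ha₂, ha₄]; ring]
      rw [div_add' _ _ _ (mul_ne_zero he0 hD0), div_mul_eq_mul_div,
        div_mul_cancel₀ _ (mul_ne_zero he0 hD0), div_eq_div_iff hne (mul_ne_zero he0 hD0),
        hDsq]
      linear_combination -(2 * e₁ * (2 * y + s) * a₁ * e₁) * hE
  · rw [slope_of_X_ne hx]
    refine ⟨(c₁ - c₂) / (x₁ - x₂), div_mem (sub_mem hc₁ hc₂) (sub_mem hx₁ hx₂),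
      (e₁ - e₂) / (x₁ - x₂), div_mem (sub_mem he₁ he₂) (sub_mem hx₁ hx₂), ?_, ?_⟩
    · have := sub_ne_zero.mpr hx
      field_simp
      linear_combination hrel₁ - hrel₂
    · rw [hY₁, hY₂]
      have := sub_ne_zero.mpr hx
      field_simp
      ring

omit [Fintype F] in
lemma isGood_self : IsGood W t y (Point.some t y hG) :=
  ⟨IntermediateField.mem_adjoin_simple_self F t, 0, zero_mem _, 1, one_mem _, by ring, by ring⟩

/-- The trace relation of `y ^ q` and its conjugate. -/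
lemma powA_rel : 2 * aeval t (aP W) - aeval t (bP W) *
    (algebraMap F L W.a₁ * t + algebraMap F L W.a₃) =
      -(algebraMap F L W.a₁ * t ^ qq + algebraMap F L W.a₃) := by
  have hE := equationG hG
  have h : y ^ 2 + aeval t (sP W) * y = aeval t (fP W) := by simpa [sP, fP] using hE
  have h' : (-y - aeval t (sP W)) ^ 2 + aeval t (sP W) * (-y - aeval t (sP W)) =
      aeval t (fP W) := by linear_combination h
  have e1 := powAB_spec W h qq
  have e2 := powAB_spec W h' qq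
  have e3 : (-y - aeval t (sP W)) ^ qq =
      -(y ^ qq) - (algebraMap F L W.a₁ * t ^ qq + algebraMap F L W.a₃) := by
    have := map_sub (FiniteField.frobeniusAlgHom F L) (-y) (aeval t (sP W))
    simp only [map_neg, ← aeval_algHom_apply] at this
    simpa [FiniteField.coe_frobeniusAlgHom, sP] using this
  rw [e3, e1] at e2
  simp [sP] at e2
  linear_combination -e2

lemma isGood_frob {P : (W⁄L).Point} (hP : IsGood W t y P) : IsGood W t y (frobPt W L P) := by
  rcases P with _ | ⟨x, Y, n⟩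
  · exact hP
  obtain ⟨hx, c, hc, e, he, hY, hrel⟩ := hP
  rw [frobPt, Point.map_some]
  have ha : ∀ p : F[X], aeval t p ∈ F⟮t⟯ := fun p ↦
    (IntermediateField.mem_adjoin_simple_iff _ _).mpr ⟨p, 1, by simp⟩
  have h : y ^ 2 + aeval t (sP W) * y = aeval t (fP W) := by simpa [sP, fP] using equationG hG
  refine ⟨?_, c ^ qq + e ^ qq * aeval t (aP W), add_mem (pow_mem hc _) (mul_mem (pow_mem he _) (ha _)),
    e ^ qq * aeval t (bP W), mul_mem (pow_mem he _) (ha _), ?_, ?_⟩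
  · simpa [FiniteField.coe_frobeniusAlgHom] using pow_mem hx qq
  · rw [hY, map_add, map_mul]
    simp only [FiniteField.coe_frobeniusAlgHom]
    rw [powAB_spec W h qq]
    ring
  · have h3 := congrArg (FiniteField.frobeniusAlgHom F L) hrel
    simp only [map_sub, map_mul, map_add, map_neg, map_ofNat, AlgHom.commutes] at h3
    simp only [FiniteField.coe_frobeniusAlgHom] at h3 ⊢
    linear_combination h3 + e ^ qq * powA_rel hG

variable (W t y) in
omit hG in
/-- Height of the x-coordinate. -/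
def IsHt (P : (W⁄L).Point) (D : ℕ) : Prop :=
  ∃ (v : Fin 2 → F[X]) (c : L), c ≠ 0 ∧ IsRed v D ∧ P.xRep = c • fun i ↦ aeval t (v i)

omit [Fintype F] hG in
lemma isHt_neg {P : (W⁄L).Point} {D : ℕ} (h : IsHt W t P D) : IsHt W t (-P) D := by
  simpa [IsHt, xRep_neg] using h

omit [Fintype F] hG in
lemma isHt_zero : IsHt W t (0 : (W⁄L).Point) 0 :=
  ⟨fun i ↦ C (![1, 0] i), 1, one_ne_zero, isRed_const (by simp), by
    rw [xRep_zero, one_smul]; funext i; fin_cases i <;> simp⟩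

omit [Fintype F] in
lemma isHt_self : IsHt W t (Point.some t y hG) 1 := by
  refine ⟨![X, 1], 1, one_ne_zero, ⟨fun r h ↦ ?_, fun i ↦ ?_, fun h ↦ ?_⟩, ?_⟩
  · simpa using congrFun h 1
  · fin_cases i <;> simp
  · simpa using congrFun h 0
  · rw [xRep_some, one_smul]; funext i; fin_cases i <;> simp

omit hG in
lemma isHt_frob {P : (W⁄L).Point} {D : ℕ} (h : IsHt W t P D) :
    IsHt W t (frobPt W L P) (qq * D) := by
  obtain ⟨v, c, hc, hv, hx⟩ := h
  refine ⟨fun i ↦ v i ^ qq, c ^ qq, pow_ne_zero _ hc, ⟨fun r h ↦ ?_, fun i ↦ ?_, fun h ↦ ?_⟩, ?_⟩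
  · exact hv.prim r (funext fun i ↦ by simpa [Fintype.card_ne_zero] using congrFun h i)
  · exact natDegree_pow_le_of_le _ (hv.le i)
  · refine hv.top (funext fun i ↦ ?_)
    have := congrFun h i
    rw [coeff_pow_of_natDegree_le (hv.le i)] at this
    exact pow_eq_zero_iff (Fintype.card_ne_zero) |>.mp this
  · rw [frobPt, xRep_map, hx]
    funext i
    simp [FiniteField.coe_frobeniusAlgHom, mul_pow]

omit hG in
lemma exists_isHt {P : (W⁄L).Point} (hP : IsGood W t y P) : ∃ D, IsHt W t P D := by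
  rcases P with _ | ⟨x, Y, n⟩
  · exact ⟨0, isHt_zero⟩
  obtain ⟨hx, -⟩ := hP
  obtain ⟨r, s, hrs⟩ := (IntermediateField.mem_adjoin_simple_iff _ _).mp hx
  by_cases hs : aeval t s = 0
  · refine ⟨0, fun i ↦ C (![0, 1] i), 1, one_ne_zero, isRed_const (by simp), ?_⟩
    rw [xRep_some, one_smul, hrs, hs, div_zero]
    funext i; fin_cases i <;> simp
  obtain ⟨g, w, D, hg, hv, hw⟩ := exists_isRed ![r, s] (fun h ↦ hs (by simp [show s = 0 from congrFun h 1]))
  have h0 : r = g * w 0 := hv 0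
  have h1 : s = g * w 1 := hv 1
  rw [h1, map_mul] at hs
  refine ⟨D, w, (aeval t (w 1))⁻¹, inv_ne_zero (right_ne_zero_of_mul hs), hw, ?_⟩
  rw [xRep_some]
  funext i
  fin_cases i
  · change x = (aeval t (w 1))⁻¹ * aeval t (w 0)
    rw [hrs, h0, h1, map_mul, map_mul, mul_div_mul_left _ _ (left_ne_zero_of_mul hs)]
    field_simp
  · simp [right_ne_zero_of_mul hs]

variable (W t y) in
omit hG in
/-- The height. -/
def ht (P : (W⁄L).Point) : ℕ := if h : ∃ D, IsHt W t P D then h.choose else 0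

variable (htr : Transcendental F t)
include htr

omit hG [Fintype F] in
lemma ht_eq {P : (W⁄L).Point} {D : ℕ} (h : IsHt W t P D) : ht W t P = D := by
  have hex : ∃ D, IsHt W t P D := ⟨D, h⟩
  rw [ht, dif_pos hex]
  obtain ⟨v, c, hc, hv, hx⟩ := hex.choose_spec
  obtain ⟨v', c', hc', hv', hx'⟩ := h
  refine hv.unique htr hv' (c := c⁻¹ * c') ?_
  rw [mul_smul, ← hx', hx, inv_smul_smul₀ hc]

variable [W.IsElliptic]

/-- The parallelogram law. -/
lemma ht_parallelogram {P Q : (W⁄L).Point} (hP : IsGood W t y P) (hQ : IsGood W t y Q) :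
    (ht W t (P + Q) : ℤ) + ht W t (P - Q) = 2 * ht W t P + 2 * ht W t Q := by
  obtain ⟨D₁, h₁⟩ := exists_isHt hP
  obtain ⟨D₂, h₂⟩ := exists_isHt hQ
  obtain ⟨D₃, h₃⟩ := exists_isHt (isGood_add hG hP hQ)
  obtain ⟨D₄, h₄⟩ := exists_isHt (P := P - Q) (by
    rw [sub_eq_add_neg]; exact isGood_add hG hP (isGood_neg hQ))
  rw [ht_eq htr h₁, ht_eq htr h₂, ht_eq htr h₃, ht_eq htr h₄]
  obtain ⟨v₁, c₁, hc₁, hv₁, hx₁⟩ := h₁
  obtain ⟨v₂, c₂, hc₂, hv₂, hx₂⟩ := h₂
  obtain ⟨v₃, c₃, hc₃, hv₃, hx₃⟩ := h₃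
  obtain ⟨v₄, c₄, hc₄, hv₄, hx₄⟩ := h₄
  haveI : (W⁄L).IsElliptic := inferInstanceAs (W.map (algebraMap F L)).IsElliptic
  obtain ⟨c, hc, hrel⟩ := Torsion.exists_addSubVal_sym2x P Q
  have hsym : ∀ (R S : (W⁄L).Point), R.sym2x S = symPair R.xRep S.xRep := fun R S ↦ rfl
  have hscale : ∀ (k k' : L) (u u' : Fin 2 → L),
      symPair (k • u) (k' • u') = (k * k') • symPair u u' := fun k k' u u' ↦ by
    funext i; fin_cases i <;> simp [symPair] <;> ring
  rw [show Torsion.addSubVal (W⁄L) (P.sym2x Q) = phi W (P.sym2x Q) from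
    (phi_eq_addSubVal W _).symm, hsym, hsym, hx₁, hx₂, hx₃, hx₄, hscale, hscale, phi_smul, smul_smul,
    ← map_symPair, ← map_symPair, ← map_phi] at hrel
  have hk : (c₁ * c₂) ^ 2 ≠ 0 := pow_ne_zero _ (mul_ne_zero hc₁ hc₂)
  have := ((hv₁.symPair hv₂).phi W).unique htr (hv₃.symPair hv₄)
    (c := ((c₁ * c₂) ^ 2)⁻¹ * (c * (c₃ * c₄))) (by rw [mul_smul, ← hrel, inv_smul_smul₀ hk])
  push_cast
  omega

/-- The generic `G - πG`. -/
lemma isHt_sub_frob :
    IsHt W t (Point.some t y hG - frobPt W L (Point.some t y hG)) W.card := by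
  obtain ⟨g, a, ha, hN, hd⟩ := exists_red_numP W
  have hne : t ^ qq ≠ t := fun h ↦ htr ⟨dP F, fun h0 ↦ by
    have := congrArg (fun p ↦ p.coeff qq) h0
    simp [dP, coeff_X, Fintype.one_lt_card.ne] at this, by simp [dP, h]⟩
  have hd0 : aeval t (dP F) ^ 2 ≠ 0 := pow_ne_zero _ (by simp [dP, sub_eq_zero, hne])
  rw [frobPt, Point.map_some, sub_eq_add_neg, neg_some,
    add_of_X_ne (by simpa [FiniteField.coe_frobeniusAlgHom] using hne.symm)]
  have hb : aeval t (a 1) ≠ 0 := by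
    rw [← map_pow, hd, map_mul] at hd0
    exact right_ne_zero_of_mul hd0
  refine ⟨a, (aeval t (a 1))⁻¹, inv_ne_zero hb, ha, ?_⟩
  rw [xRep_some]
  have hE : y ^ 2 + aeval t (sP W) * y = aeval t (fP W) := by simpa [sP, fP] using equationG hG
  have hnum := aeval_numP W hE
  have hg : aeval t g ≠ 0 := by
    rw [← map_pow, hd, map_mul] at hd0
    exact left_ne_zero_of_mul hd0
  funext i
  fin_cases i
  · change _ = (aeval t (a 1))⁻¹ * aeval t (a 0)
    have e : aeval t (a 0) / aeval t (a 1) = aeval t (numP W) / aeval t (dP F) ^ 2 := by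
      rw [← map_pow, hN, hd, map_mul, map_mul, mul_div_mul_left _ _ hg]
    rw [inv_mul_eq_div, e, hnum]
    simp [FiniteField.coe_frobeniusAlgHom, slope_of_X_ne hne.symm, addX, negY, dP, sP,
      WeierstrassCurve.map]
    have h1 : t - t ^ qq ≠ 0 := sub_ne_zero.mpr hne.symm
    have h2 : t ^ qq - t ≠ 0 := sub_ne_zero.mpr hne
    field_simp
    ring
  · simp [hb]

omit [W.IsElliptic] hG in
/-- A coordinate of positive height is transcendental. -/
lemma transcendental_of_isHt {x Y : L} {h : (W⁄L).Nonsingular x Y} {D : ℕ}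
    (hh : IsHt W t (Point.some x Y h) D) (hD : D ≠ 0) : Transcendental F x := by
  intro halg
  obtain ⟨v, c, hc, hv, hx⟩ := hh
  rw [xRep_some] at hx
  have hx0 : x = c * aeval t (v 0) := by simpa using congrFun hx 0
  have hx1 : 1 = c * aeval t (v 1) := by simpa using congrFun hx 1
  set m := minpoly F x
  have hint : IsIntegral F x := halg.isIntegral
  have hm : IsRed ![m, 1] m.natDegree := by
    refine ⟨fun r h ↦ by simpa using congrFun h 1, fun i ↦ by fin_cases i <;> simp, fun h ↦ ?_⟩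
    have := congrFun h 0
    simp at this
    exact minpoly.ne_zero hint this
  have hw := hm.homComp hv
  have hb : aeval t (v 1) ≠ 0 := right_ne_zero_of_mul (hx1 ▸ one_ne_zero)
  have h0 : homComp ![m, 1] m.natDegree v 0 = 0 := by
    refine transcendental_iff_injective.mp htr ?_
    rw [_root_.map_zero, homComp, map_homEval, homEval_eq _ _ (hm.le 0) hb]
    have hxe : aeval t (v 0) / aeval t (v 1) = x := by
      rw [div_eq_iff hb, hx0]; linear_combination (aeval t (v 0)) * hx1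
    simp [hxe, m, minpoly.aeval]
  set w := homComp ![m, 1] m.natDegree v
  have hconst : (w 1).natDegree = 0 := by
    by_contra hne
    obtain ⟨r, hr⟩ := IsAlgClosed.exists_aeval_eq_zero (AlgebraicClosure F) (w 1)
      (fun h ↦ hne (natDegree_eq_zero_iff_degree_le_zero.mpr h.le))
    exact hw.prim r (funext fun i ↦ by fin_cases i <;> simp [h0, hr])
  refine hw.top (funext fun i ↦ ?_)
  have hpos : 0 < m.natDegree * D :=
    Nat.mul_pos (minpoly.natDegree_pos hint) (Nat.pos_of_ne_zero hD)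
  fin_cases i
  · simp [h0]
  · exact coeff_eq_zero_of_natDegree_lt (hconst ▸ hpos)

omit [W.IsElliptic] in
/-- An endomorphism of the big field moving the generic point to a given transcendental one. -/
lemma exists_move [IsAlgClosed L] [Algebra.IsAlgebraic F⟮t⟯ L] {x Y : L}
    (h : (W⁄L).Nonsingular x Y) (hx : Transcendental F x) :
    ∃ σ : L →ₐ[F] L, σ t = x ∧ (Point.map σ (Point.some t y hG) = Point.some x Y h ∨
      Point.map σ (Point.some t y hG) = -Point.some x Y h) := by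
  let f : F⟮t⟯ →ₐ[F] L := (F⟮x⟯).val.comp
    ((RatFunc.algEquivOfTranscendental x hx).toAlgHom.comp
      (RatFunc.algEquivOfTranscendental t htr).symm.toAlgHom)
  obtain ⟨σ, hσ⟩ := IsAlgClosed.surjective_domRestrict_of_isAlgebraic (K := F) (L := F⟮t⟯)
    (M := L) (E := L) f
  have hσt : σ t = x := by
    have := DFunLike.congr_fun hσ (IntermediateField.AdjoinSimple.gen F t)
    have e : (RatFunc.algEquivOfTranscendental t htr).symm (IntermediateField.AdjoinSimple.gen F t) =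
        RatFunc.X := by
      rw [AlgEquiv.symm_apply_eq]
      exact Subtype.ext (RatFunc.algEquivOfTranscendental_X t htr).symm
    change σ t = ((RatFunc.algEquivOfTranscendental x hx) _ : L) at this
    rw [this]
    exact (congrArg (fun u ↦ ((RatFunc.algEquivOfTranscendental x hx u : F⟮x⟯) : L)) e).trans
      (RatFunc.algEquivOfTranscendental_X x hx)
  refine ⟨σ, hσt, ?_⟩
  rw [Point.map_some]
  exact X_eq_iff.mp hσt

/-- Composition multiplies heights. -/
lemma isHt_comb_comp [IsAlgClosed L] [Algebra.IsAlgebraic F⟮t⟯ L] {a b c : ℤ} {D E : ℕ}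
    {R : (W⁄L).Point} (hR : IsHt W t R E) (hE : E ≠ 0)
    (hD : IsHt W t (comb W a b c (Point.some t y hG)) D) :
    IsHt W t (comb W a b c R) (D * E) := by
  rcases R with _ | ⟨x, Y, hxY⟩
  · have := (ht_eq htr hR).symm.trans (ht_eq htr isHt_zero)
    exact absurd this hE
  obtain ⟨σ, hσt, hσ⟩ := exists_move hG htr hxY (transcendental_of_isHt htr hR hE)
  obtain ⟨A, cA, hcA, hA, hxA⟩ := hD
  obtain ⟨v, cv, hcv, hv, hxv⟩ := hR
  rw [xRep_some] at hxv
  have hx0 : x = cv * aeval t (v 0) := by simpa using congrFun hxv 0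
  have hx1 : 1 = cv * aeval t (v 1) := by simpa using congrFun hxv 1
  have hb : aeval t (v 1) ≠ 0 := right_ne_zero_of_mul (hx1 ▸ one_ne_zero)
  have hxe : aeval t (v 0) / aeval t (v 1) = x := by
    rw [div_eq_iff hb, hx0]; linear_combination (aeval t (v 0)) * hx1
  refine ⟨homComp A D v, σ cA / aeval t (v 1) ^ D,
    div_ne_zero ((map_ne_zero σ).mpr hcA) (pow_ne_zero _ hb), hA.homComp hv, ?_⟩
  have e : (comb W a b c (Point.some x Y hxY)).xRep =
      fun i ↦ σ ((comb W a b c (Point.some t y hG)).xRep i) := by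
    rw [← xRep_map, map_comb]
    rcases hσ with h | h <;> rw [h]
    rw [comb_neg, xRep_neg]
  rw [e, hxA]
  funext i
  rw [Pi.smul_apply, Pi.smul_apply, smul_eq_mul, smul_eq_mul, map_mul, ← aeval_algHom_apply,
    hσt, homComp, map_homEval, homEval_eq _ _ (hA.le i) hb, hxe]
  field_simp

end FLTAgent.FrobTrace

end
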