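import Fermat.Agent.FrobTrace.Generic
import Fermat.Agent.Torsion.Basic
import Mathlib

/-!
Frobenius on the torsion of an elliptic curve over a finite field satisfies `π² - a π + q = 0`,
and on `E[p]` has trace `a` and determinant `q`.
-/

set_option autoImplicit false

noncomputable section

open Polynomial
open scoped Classical WeierstrassCurve.Affine IntermediateField
open WeierstrassCurve WeierstrassCurve.Affine WeierstrassCurve.Affine.Point

namespace FLTAgent.FrobTrace

section Quad

variable {V : Type*} [AddCommGroup V] {h : V → ℤ}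
  (H : ∀ u v, h (u + v) + h (u - v) = 2 * h u + 2 * h v)
include H

/-- The form attached to a function satisfying the parallelogram law is biadditive. -/
lemma parallelogram_add (u v w : V) :
    h (u + v + w) = h (u + v) + h (v + w) + h (u + w) - h u - h v - h w := by
  have h1 := H (u + v) w
  have h2 := H (u - w) v
  have h3 := H u (v + w)
  have h4 := H u w
  rw [← add_assoc] at h3
  rw [show u - w + v = u + v - w by abel, show u - w - v = u - (v + w) by abel] at h2
  omega

/-- The expansion of a function satisfying the parallelogram law on three generators. -/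
lemma parallelogram_expand (u v w : V) (a b c : ℤ) :
    h (a • u + b • v + c • w) = a ^ 2 * h u + b ^ 2 * h v + c ^ 2 * h w
      + a * b * (h (u + v) - h u - h v) + a * c * (h (u + w) - h u - h w)
      + b * c * (h (v + w) - h v - h w) := by
  let B : V → V → ℤ := fun x y ↦ h (x + y) - h x - h y
  have hadd : ∀ x y z, B (x + y) z = B x z + B y z := fun x y z ↦ by
    simp only [B, parallelogram_add H]; ring
  let Bh : V → V →+ ℤ := fun z ↦ AddMonoidHom.mk' (fun x ↦ B x z) (fun x y ↦ hadd x y z)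
  have hl : ∀ (n : ℤ) x z, B (n • x) z = n * B x z := fun n x z ↦ by
    have := (Bh z).map_zsmul n x
    simpa [Bh] using this
  have hcomm : ∀ x y, B x y = B y x := fun x y ↦ by simp only [B, add_comm]; ring
  have hadd' : ∀ x y z, B x (y + z) = B x y + B x z := fun x y z ↦ by
    rw [hcomm, hadd, hcomm y, hcomm z]
  have hr : ∀ (n : ℤ) x z, B x (n • z) = n * B x z := fun n x z ↦ by rw [hcomm, hl, hcomm]
  have h0 : h 0 = 0 := by
    have := H 0 0
    simp at this
    omega
  have hdiag : ∀ x, B x x = 2 * h x := fun x ↦ by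
    have := H x x
    rw [sub_self, h0] at this
    simp only [B]
    omega
  have e := hdiag (a • u + b • v + c • w)
  simp only [hadd, hadd', hl, hr, hdiag, hcomm v u, hcomm w u, hcomm w v] at e
  simp only [B] at e
  linear_combination (-1 / 2 : ℤ) * (0 : ℤ) + (Int.eq_of_mul_eq_mul_left two_ne_zero (e.symm.trans
    (show _ = 2 * (a ^ 2 * h u + b ^ 2 * h v + c ^ 2 * h w + a * b * (h (u + v) - h u - h v)
      + a * c * (h (u + w) - h u - h w) + b * c * (h (v + w) - h v - h w)) by ring)))

end Quad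

variable {F : Type*} [Field F] [Fintype F] (W : WeierstrassCurve F) [W.IsElliptic]

local notation "qq" => Fintype.card F

section Degree

variable {L : Type*} [Field L] [Algebra F L] [IsAlgClosed L] {t y : L}
  [Algebra.IsAlgebraic F⟮t⟯ L] (hG : (W⁄L).Nonsingular t y) (htr : Transcendental F t)
include hG htr

omit [IsAlgClosed L] [Algebra.IsAlgebraic F⟮t⟯ L] in
lemma isGood_comb (a b c : ℤ) : IsGood W t y (comb W a b c (Point.some t y hG)) := by
  have hz : ∀ (n : ℤ) (P : (W⁄L).Point), IsGood W t y P → IsGood W t y (n • P) := by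
    intro n P hP
    induction n using Int.induction_on with
    | zero => rw [zero_smul]; trivial
    | succ k ih => rw [add_smul, one_smul]; exact isGood_add hG ih hP
    | pred k ih =>
      rw [sub_smul, one_smul, sub_eq_add_neg]
      exact isGood_add hG ih (isGood_neg hP)
  have h1 := isGood_self (W := W) hG
  have h2 := isGood_frob hG h1
  exact isGood_add hG (isGood_add hG (hz a _ h1) (hz b _ h2)) (hz c _ (isGood_frob hG h2))

/-- The height of `a + b π + c π ^ 2`. -/
theorem ht_comb (a b c : ℤ) :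
    (ht W t (comb W a b c (Point.some t y hG)) : ℤ) =
      a ^ 2 + b ^ 2 * qq + c ^ 2 * (qq : ℤ) ^ 2 + a * b * W.traceOfFrobenius
        + a * c * (W.traceOfFrobenius ^ 2 - 2 * qq) + b * c * qq * W.traceOfFrobenius := by
  set G := Point.some t y hG
  let S : AddSubgroup (W⁄L).Point :=
    { carrier := {P | IsGood W t y P}
      add_mem' := fun ha hb ↦ isGood_add hG ha hb
      zero_mem' := trivial
      neg_mem' := fun ha ↦ isGood_neg ha }
  let h : S → ℤ := fun P ↦ ht W t (P : (W⁄L).Point)
  have H : ∀ u v : S, h (u + v) + h (u - v) = 2 * h u + 2 * h v := fun u v ↦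
    ht_parallelogram hG htr u.2 v.2
  have g1 := isGood_self (W := W) hG
  have g2 := isGood_frob hG g1
  have g3 := isGood_frob hG g2
  set u : S := ⟨G, g1⟩
  set v : S := ⟨frobPt W L G, g2⟩
  set w : S := ⟨frobPt W L (frobPt W L G), g3⟩
  have hu' : IsHt W t G 1 := isHt_self hG
  have hu : h u = 1 := by simp only [h]; exact_mod_cast ht_eq htr hu'
  have hv : h v = qq := by
    have := ht_eq htr (isHt_frob hu'); simp only [h]; rw [mul_one] at this; exact_mod_cast this
  have hw : h w = (qq : ℤ) ^ 2 := by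
    have := ht_eq htr (isHt_frob (isHt_frob hu'))
    simp only [h]; rw [mul_one] at this; rw [sq]; exact_mod_cast this
  have huv : h (u - v) = W.card := by
    simp only [h]
    exact_mod_cast ht_eq htr (isHt_sub_frob hG htr)
  have ha : (W.traceOfFrobenius : ℤ) = qq + 1 - W.card := by
    rw [WeierstrassCurve.traceOfFrobenius, Nat.card_eq_fintype_card]
  have hplus : h (u + v) = 2 + 2 * qq - W.card := by
    have := H u v; rw [hu, hv, huv] at this; omega
  obtain ⟨E, hE⟩ := exists_isHt (isGood_add hG g1 g2)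
  have hE' : (E : ℤ) = 2 + 2 * qq - W.card := by
    rw [← hplus, ← ht_eq htr hE]; rfl
  have hE0 : E ≠ 0 := by
    have : W.card ≤ 1 + 2 * qq := by
      rw [card_eq_sum_fibre W]
      have := Finset.sum_le_sum (s := (Finset.univ : Finset F)) fun x _ ↦ (numP_local W x).1
      simp only [Finset.sum_const, Finset.card_univ, smul_eq_mul] at this
      omega
    intro h0
    rw [h0] at hE'
    omega
  have hm : IsHt W t (comb W 1 (-1) 0 G) W.card := by
    have := isHt_sub_frob hG htr
    simpa [comb, sub_eq_add_neg] using this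
  have hc := isHt_comb_comp hG htr hE hE0 hm
  have e : comb W 1 (-1) 0 (G + frobPt W L G) = G - frobPt W L (frobPt W L G) := by
    simp [comb, map_add]; abel
  rw [e] at hc
  have huw : h (u - w) = W.card * (2 + 2 * qq - W.card : ℤ) := by
    rw [← hE']; simp only [h]
    exact_mod_cast ht_eq htr hc
  have hvw : h (v + w) = qq * (2 + 2 * qq - W.card : ℤ) := by
    rw [← hE']
    have := ht_eq htr (isHt_frob hE)
    rw [map_add] at this
    simp only [h]
    exact_mod_cast this
  have huw' : h (u + w) = 2 + 2 * (qq : ℤ) ^ 2 - W.card * (2 + 2 * qq - W.card : ℤ) := by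
    have := H u w; rw [hu, hw, huw] at this; linarith
  have := parallelogram_expand H u v w a b c
  rw [hu, hv, hw, hplus, hvw, huw'] at this
  change (ht W t (comb W a b c G) : ℤ) = _ at this
  rw [this, ha]
  ring

/-- Hasse's bound. -/
theorem sq_trace_le : W.traceOfFrobenius ^ 2 ≤ 4 * qq := by
  have h := ht_comb W hG htr (-W.traceOfFrobenius) 2 0
  have : (0 : ℤ) ≤ ht W t (comb W (-W.traceOfFrobenius) 2 0 (Point.some t y hG)) := by positivity
  rw [h] at this
  linarith

variable {K : Type*} [Field K] [Algebra F K] [IsAlgClosed K] (ι : K →ₐ[F] L)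
include ι

omit [IsAlgClosed L] [Algebra.IsAlgebraic F⟮t⟯ L] hG htr [Fintype F] [W.IsElliptic] in
lemma mem_range_of_isIntegral {z : L} (hz : letI := ι.toRingHom.toAlgebra; IsIntegral K z) :
    z ∈ Set.range ι := by
  letI := ι.toRingHom.toAlgebra
  obtain ⟨a, ha⟩ := minpoly.mem_range_of_degree_eq_one K z
    (IsAlgClosed.degree_eq_one_of_irreducible _ (minpoly.irreducible hz))
  exact ⟨a, ha⟩

omit [IsAlgClosed L] [Algebra.IsAlgebraic F⟮t⟯ L] hG htr [Fintype F] [W.IsElliptic] in
lemma mem_range_map [Algebra.IsAlgebraic F K] {x Y : L} {h : (W⁄L).Nonsingular x Y}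
    (hx : IsAlgebraic F x) :
    ∃ P : (W⁄K).Point, Point.map ι P = Point.some x Y h := by
  letI := ι.toRingHom.toAlgebra
  haveI : IsScalarTower F K L := IsScalarTower.of_algebraMap_eq fun a ↦ (ι.commutes a).symm
  obtain ⟨a, rfl⟩ := mem_range_of_isIntegral ι hx.isIntegral.tower_top
  obtain ⟨b, rfl⟩ : Y ∈ Set.range ι := by
    refine mem_range_of_isIntegral ι ⟨X ^ 2 + C (algebraMap F K W.a₁ * a + algebraMap F K W.a₃) * X
      + C (-(a ^ 3 + algebraMap F K W.a₂ * a ^ 2 + algebraMap F K W.a₄ * a + algebraMap F K W.a₆)),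
      by monicity!, ?_⟩
    have he := (equation_iff' _ _).mp h.1
    simp [WeierstrassCurve.map] at he
    have hι : ∀ z, algebraMap K L z = ι z := fun z ↦ rfl
    simp [hι]
    linear_combination he
  refine ⟨Point.some a b ((W.toAffine.baseChange_nonsingular ι.injective a b).mp h), ?_⟩
  rw [Point.map_some]

omit [IsAlgClosed L] [Algebra.IsAlgebraic F⟮t⟯ L] in
lemma self_not_mem_range [Algebra.IsAlgebraic F K] (P : (W⁄K).Point) :
    Point.map ι P ≠ Point.some t y hG := by
  rcases P with _ | ⟨a, b, h⟩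
  · rw [← Point.zero_def, Point.map_zero]; exact (some_ne_zero hG).symm
  · rw [Point.map_some]
    intro e
    rw [Point.some.injEq] at e
    exact htr (e.1 ▸ (Algebra.IsAlgebraic.isAlgebraic a).algHom ι)

/-- The coordinate of a translate of the generic point is transcendental. -/
lemma exists_translate [Algebra.IsAlgebraic F K] (P : (W⁄K).Point) :
    ∃ (x Y : L) (h : (W⁄L).Nonsingular x Y),
      Point.some t y hG + Point.map ι P = Point.some x Y h ∧ Transcendental F x := by
  rcases hR : Point.some t y hG + Point.map ι P with _ | ⟨x, Y, h⟩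
  · rw [← Point.zero_def] at hR
    exact absurd ((map_neg _ P).trans (neg_eq_of_add_eq_zero_left hR))
      (self_not_mem_range W hG htr ι (-P))
  · refine ⟨x, Y, h, rfl, fun halg ↦ ?_⟩
    obtain ⟨Q, hQ⟩ := mem_range_map W ι (h := h) halg
    refine self_not_mem_range W hG htr ι (Q - P) ?_
    rw [map_sub, hQ, ← hR, add_sub_cancel_right]

/-- `π² - a π + q` kills the torsion prime to the characteristic. -/
theorem comb_eq_zero_of_torsion [Algebra.IsAlgebraic F K] {n : ℕ} (hn : (n : F) ≠ 0)
    {P : (W⁄K).Point} (hP : n • P = 0) :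
    comb W (qq : ℤ) (-W.traceOfFrobenius) 1 P = 0 := by
  set G := Point.some t y hG
  set φ : (W⁄L).Point → (W⁄L).Point := comb W (qq : ℤ) (-W.traceOfFrobenius) 1 with hφ
  obtain ⟨D, hD⟩ := exists_isHt (isGood_comb W hG htr (qq : ℤ) (-W.traceOfFrobenius) 1)
  have hD0 : D = 0 := by
    have h := ht_comb W hG htr (qq : ℤ) (-W.traceOfFrobenius) 1
    rw [ht_eq htr hD] at h
    have : (D : ℤ) = 0 := by rw [h]; ring
    exact_mod_cast this
  -- the value at the generic point has constant coordinate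
  set T : Set (Fin 2 → L) := Set.range (fun v : Fin 2 → Option F ↦ fun i ↦
    (v i).elim 0 (algebraMap F L))
  set S : Set (W⁄L).Point := {Q | Q.xRep ∈ T}
  have hS : S.Finite := by
    refine Set.Finite.preimage' (Set.finite_range _) fun r _ ↦ ?_
    by_cases hne : ∃ Q : (W⁄L).Point, Q.xRep = r
    · obtain ⟨Q, hQ⟩ := hne
      refine Set.Finite.subset (Set.toFinite {Q, -Q}) fun Q' hQ' ↦ ?_
      exact eq_or_eq_neg_of_xRep_eq_xRep ((show Q'.xRep = r from hQ').trans hQ.symm)
    · exact Set.Finite.subset Set.finite_empty fun Q' hQ' ↦ hne ⟨Q', hQ'⟩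
  have hGS : φ G ∈ S := by
    subst hD0
    obtain ⟨v, c, hc, hv, hx⟩ := hD
    have hvC : ∀ i, aeval t (v i) = algebraMap F L ((v i).coeff 0) := fun i ↦ by
      conv_lhs => rw [eq_C_of_natDegree_le_zero (hv.le i), aeval_C]
    simp only [hvC] at hx
    rcases hQ : φ G with _ | ⟨x, Y, h⟩
    · exact ⟨![some 1, none], funext fun i ↦ by
        rw [← Point.zero_def, xRep_zero]; fin_cases i <;> simp⟩
    · refine ⟨![some ((v 0).coeff 0 / (v 1).coeff 0), some 1], funext fun i ↦ ?_⟩
      rw [hφ] at hQ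
      rw [hQ, xRep_some] at hx
      have h1 : (1 : L) = c * algebraMap F L ((v 1).coeff 0) := by simpa using congrFun hx 1
      have h0 : x = c * algebraMap F L ((v 0).coeff 0) := by simpa using congrFun hx 0
      rw [xRep_some]
      fin_cases i
      · change algebraMap F L ((v 0).coeff 0 / (v 1).coeff 0) = x
        rw [map_div₀, h0, div_eq_iff (right_ne_zero_of_mul (h1 ▸ one_ne_zero))]
        linear_combination (algebraMap F L ((v 0).coeff 0)) * h1
      · simp
  have htrans : ∀ R : (W⁄K).Point, φ (G + Point.map ι R) ∈ S := by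
    intro R
    obtain ⟨x, Y, h, he, hx⟩ := exists_translate W hG htr ι R
    rw [he]
    obtain ⟨σ, -, hσ⟩ := exists_move hG htr h hx
    obtain ⟨v, hv⟩ := hGS
    refine ⟨v, ?_⟩
    have e : (φ (Point.some x Y h)).xRep = fun i ↦ σ ((φ G).xRep i) := by
      rw [← xRep_map, hφ, map_comb]
      rcases hσ with h' | h' <;> rw [h']
      rw [comb_neg, xRep_neg]
    rw [e, ← hv]
    funext i
    simp only
    cases v i <;> simp
  set S' : Set (W⁄L).Point := Set.image2 (· - ·) S S
  have hS' : S'.Finite := hS.image2 _ hS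
  have hmem : ∀ R : (W⁄K).Point, φ (Point.map ι R) ∈ S' := fun R ↦
    ⟨_, htrans R, _, hGS, by simp only [hφ, comb_add, G]; abel⟩
  -- divisibility
  have hn0 : n ≠ 0 := fun h ↦ hn (by rw [h, Nat.cast_zero])
  have hnK : ∀ k : ℕ, ((n ^ k : ℕ) : K) ≠ 0 := fun k ↦ by
    rw [Nat.cast_pow, ← map_natCast (algebraMap F K)]
    exact pow_ne_zero _ ((_root_.map_ne_zero _).mpr hn)
  haveI : (W⁄K).IsElliptic := inferInstanceAs (W.map (algebraMap F K)).IsElliptic
  have hdiv : ∀ k (Q : (W⁄K).Point), n ^ k • Q = 0 → ∃ R, n • R = Q ∧ n ^ (k + 1) • R = 0 := by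
    intro k Q hQ
    let A := (nsmulAddMonoidHom (n ^ (k + 1)) : (W⁄K).Point →+ _).ker
    let B := (nsmulAddMonoidHom (n ^ k) : (W⁄K).Point →+ _).ker
    let f : A →+ B := ((nsmulAddMonoidHom n).comp A.subtype).codRestrict B fun R ↦ by
      have : n ^ (k + 1) • (R : (W⁄K).Point) = 0 := R.2
      change n ^ k • n • (R : (W⁄K).Point) = 0
      rwa [← mul_nsmul', ← pow_succ]
    have hA : Nat.card A = (n ^ (k + 1)) ^ 2 := Torsion.card_ker_nsmul (hnK _)
    have hB : Nat.card B = (n ^ k) ^ 2 := Torsion.card_ker_nsmul (hnK _)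
    have hker : Nat.card f.ker = n ^ 2 := by
      rw [← Torsion.card_ker_nsmul (W := W⁄K) (n := n) (by simpa using hnK 1)]
      exact Nat.card_congr
        { toFun := fun R ↦ ⟨R.1.1, congrArg Subtype.val R.2⟩
          invFun := fun R ↦ ⟨⟨R.1, by
            change n ^ (k + 1) • R.1 = 0
            rw [pow_succ, mul_nsmul', R.2, nsmul_zero]⟩, Subtype.ext R.2⟩
          left_inv := fun R ↦ rfl
          right_inv := fun R ↦ rfl }
    have hrange : f.range = ⊤ := by
      haveI : Finite B := Nat.finite_of_card_ne_zero (by rw [hB]; positivity)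
      refine AddSubgroup.eq_top_of_card_eq _ ?_
      have h := AddSubgroup.card_eq_card_quotient_mul_card_addSubgroup f.ker
      rw [Nat.card_congr (QuotientAddGroup.quotientKerEquivRange f).toEquiv, hA, hker] at h
      rw [hB]
      refine Nat.eq_of_mul_eq_mul_right (pow_pos (Nat.pos_of_ne_zero hn0) 2) ?_
      rw [← h]; ring
    obtain ⟨R, hR⟩ := (AddMonoidHom.range_eq_top.mp hrange) ⟨Q, hQ⟩
    exact ⟨R.1, congrArg Subtype.val hR, R.2⟩
  choose g hg using hdiv
  let P' : ∀ k : ℕ, {R : (W⁄K).Point // n ^ (k + 1) • R = 0} := fun k ↦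
    Nat.rec ⟨P, by simpa using hP⟩ (fun j R ↦ ⟨g (j + 1) R.1 R.2, (hg _ _ R.2).2⟩) k
  have hP' : ∀ k, n • (P' (k + 1)).1 = (P' k).1 := fun k ↦ (hg _ _ (P' k).2).1
  have hPk : ∀ j k, n ^ j • (P' (k + j)).1 = (P' k).1 := by
    intro j
    induction j with
    | zero => intro k; rw [pow_zero, one_smul]; rfl
    | succ j ih => intro k; rw [pow_succ, mul_nsmul', ← add_assoc, hP', ih]
  have key : ∀ i j : ℕ, i < j → φ (Point.map ι (P' i).1) = φ (Point.map ι (P' j).1) →
      φ (Point.map ι P) = 0 := by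
    intro i j hij he
    have hsm : ∀ (m : ℕ) (R : (W⁄L).Point), φ (m • R) = m • φ R := fun m R ↦ by
      let φh : (W⁄L).Point →+ (W⁄L).Point := AddMonoidHom.mk' φ (comb_add W _ _ _)
      exact φh.map_nsmul m R
    obtain ⟨m, rfl⟩ := Nat.exists_eq_add_of_lt hij
    have e0 : n ^ i • (P' i).1 = P := by
      have := hPk i 0
      rwa [Nat.zero_add] at this
    have e1 : n ^ (i + m + 1) • (P' (i + m + 1)).1 = P := by
      have := hPk (i + m + 1) 0
      rwa [Nat.zero_add] at this
    have h1 : φ (Point.map ι P) = n ^ (m + 1) • φ (Point.map ι P) := by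
      conv_rhs => rw [← e0, map_nsmul, hsm, smul_smul, ← pow_add, he, ← hsm, ← map_nsmul]
      rw [show m + 1 + i = i + m + 1 by ring, e1]
    rw [h1, ← hsm, ← map_nsmul, pow_succ', mul_nsmul, hP, nsmul_zero, _root_.map_zero]
    simp [hφ, comb]
  have hfin : φ (Point.map ι P) = 0 := by
    haveI := hS'.to_subtype
    obtain ⟨i, j, hij, he⟩ := Finite.exists_ne_map_eq_of_infinite
      (fun k : ℕ ↦ (⟨φ (Point.map ι (P' k).1), hmem _⟩ : S'))
    have he' := congrArg Subtype.val he
    rcases Nat.lt_or_gt_of_ne hij with h | h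
    · exact key i j h he'
    · exact key j i h he'.symm
  refine Point.map_injective ι ?_
  rw [Point.map_zero, ← hfin, hφ]
  simp only [comb, map_add, map_zsmul]
  have hc : ∀ R : (W⁄K).Point, Point.map ι (frobPt W K R) = frobPt W L (Point.map ι R) := fun R ↦ by
    rw [frobPt, frobPt, Point.map_map, Point.map_map]
    congr 2
    exact AlgHom.ext fun x ↦ by simp [FiniteField.coe_frobeniusAlgHom]
  simp only [hc]

/-- A finite group killed by an isogeny has at most `degree` elements. -/
theorem card_le_ht [Algebra.IsAlgebraic F K] {m k : ℤ}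
    (hpos : ht W t (comb W m k 0 (Point.some t y hG)) ≠ 0) (H : Finset (W⁄K).Point)
    (hH : ∀ P ∈ H, comb W m k 0 P = 0) :
    H.card ≤ ht W t (comb W m k 0 (Point.some t y hG)) := by
  set G := Point.some t y hG
  set φ : (W⁄L).Point → (W⁄L).Point := comb W m k 0 with hφ
  obtain ⟨D, hD⟩ := exists_isHt (isGood_comb W hG htr m k 0)
  have hDeq := ht_eq htr hD
  rw [hDeq] at hpos ⊢
  rcases hQ : φ G with _ | ⟨c, Y, hns⟩
  · rw [hφ] at hQ
    rw [hQ] at hD
    exact absurd ((ht_eq htr hD).symm.trans (ht_eq htr isHt_zero)) hpos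
  rw [hφ] at hQ
  rw [hQ] at hD
  have hc : Transcendental F c := transcendental_of_isHt htr hD hpos
  obtain ⟨v, u, hu, hv, hx⟩ := hD
  rw [xRep_some] at hx
  have h0 : c = u * aeval t (v 0) := by simpa using congrFun hx 0
  have h1 : 1 = u * aeval t (v 1) := by simpa using congrFun hx 1
  set Pol : L[X] := (v 0).map (algebraMap F L) - C c * (v 1).map (algebraMap F L)
  have hcoef : Pol.coeff D ≠ 0 := by
    simp only [Pol, coeff_sub, coeff_C_mul, coeff_map]
    intro e
    by_cases hb : (v 1).coeff D = 0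
    · refine hv.top (funext fun i ↦ ?_)
      rw [hb, _root_.map_zero, mul_zero, sub_zero, map_eq_zero] at e
      fin_cases i
      · exact e
      · exact hb
    · refine hc ?_
      have : c = algebraMap F L ((v 0).coeff D / (v 1).coeff D) := by
        rw [map_div₀, eq_div_iff ((_root_.map_ne_zero _).mpr hb)]
        linear_combination -e
      rw [this]
      exact isAlgebraic_algebraMap _
  have hPol : Pol ≠ 0 := fun h ↦ hcoef (by rw [h, coeff_zero])
  have hdeg : Pol.natDegree ≤ D := (natDegree_sub_le _ _).trans (max_le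
    (natDegree_map_le.trans (hv.le 0))
    ((natDegree_C_mul_le _ _).trans (natDegree_map_le.trans (hv.le 1))))
  choose x Y' hns' hx' htx using fun P : (W⁄K).Point ↦ exists_translate W hG htr ι P
  have hroot : ∀ P ∈ H, x P ∈ Pol.roots.toFinset := by
    intro P hP
    rw [Multiset.mem_toFinset, mem_roots hPol]
    obtain ⟨σ, hσt, hσ⟩ := exists_move hG htr (hns' P) (htx P)
    have hφP : φ (Point.some _ _ (hns' P)) = φ G := by
      rw [← hx' P, hφ, comb_add]
      have : comb W m k 0 (Point.map ι P) = Point.map ι (comb W m k 0 P) := by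
        have hc : ∀ R : (W⁄K).Point, Point.map ι (frobPt W K R) = frobPt W L (Point.map ι R) :=
          fun R ↦ by
            rw [frobPt, frobPt, Point.map_map, Point.map_map]
            congr 2
            exact AlgHom.ext fun z ↦ by simp [FiniteField.coe_frobeniusAlgHom]
        simp only [comb, map_add, map_zsmul, hc]
      rw [this, hH P hP, Point.map_zero, add_zero]
    have e : (φ (Point.some _ _ (hns' P))).xRep = fun i ↦ σ ((φ G).xRep i) := by
      rw [← xRep_map, hφ, map_comb]
      rcases hσ with h' | h' <;> rw [h']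
      rw [comb_neg, xRep_neg]
    rw [hφP, hφ, hQ, xRep_some] at e
    have hσc : σ c = c := by simpa using (congrFun e 0).symm
    have hrel : aeval t (v 0) = c * aeval t (v 1) := by
      rw [h0]; linear_combination (aeval t (v 0)) * h1
    have := congrArg σ hrel
    rw [map_mul, hσc, ← aeval_algHom_apply, ← aeval_algHom_apply, hσt] at this
    simp only [IsRoot.def, Pol, eval_sub, eval_mul, eval_C, eval_map_algebraMap, this, sub_self]
  have hinj : Set.InjOn x H := by
    intro P _ Q _ e
    rcases (X_eq_iff (h₁ := hns' P) (h₂ := hns' Q)).mp e with e' | e'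
    · rw [← hx', ← hx', add_right_inj] at e'
      exact Point.map_injective ι e'
    · exfalso
      rw [← hx', ← hx'] at e'
      have h2 : Point.map ι (-P - Q) = G + G := by
        rw [map_sub, map_neg]
        linear_combination (norm := abel) -e'
      have hh := ht_comb W hG htr 2 0 0
      obtain ⟨D', hD'⟩ := exists_isHt (isGood_comb W hG htr 2 0 0)
      rw [ht_eq htr hD'] at hh
      have h4 : D' = 4 := by
        have : (D' : ℤ) = 4 := by rw [hh]; ring
        exact_mod_cast this
      rw [show comb W 2 0 0 G = Point.map ι (-P - Q) by rw [h2]; simp [comb, two_zsmul]] at hD'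
      rcases hR : (-P - Q) with _ | ⟨a, b, hab⟩
      · rw [hR, ← Point.zero_def, Point.map_zero] at hD'
        have := (ht_eq htr hD').symm.trans (ht_eq htr isHt_zero)
        omega
      · rw [hR, Point.map_some] at hD'
        exact transcendental_of_isHt htr hD' (by omega)
          ((Algebra.IsAlgebraic.isAlgebraic a).algHom ι)
  calc H.card ≤ Pol.roots.toFinset.card := Finset.card_le_card_of_injOn x hroot hinj
    _ ≤ Pol.roots.card := Multiset.toFinset_card_le _
    _ ≤ D := (card_roots' Pol).trans hdeg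

end Degree

section Torsion

variable {K : Type*} [Field K] [Algebra F K] [IsAlgClosed K] [Algebra.IsAlgebraic F K]

omit [W.IsElliptic] in
/-- A generic system. -/
lemma exists_system : ∃ (t y : AlgebraicClosure (RatFunc F))
    (_ : (W⁄(AlgebraicClosure (RatFunc F))).Nonsingular t y ∨ ¬ W.IsElliptic),
    Transcendental F t ∧ Algebra.IsAlgebraic F⟮t⟯ (AlgebraicClosure (RatFunc F)) := by
  let L := AlgebraicClosure (RatFunc F)
  let t : L := algebraMap (RatFunc F) L RatFunc.X
  have htr : Transcendental F t := by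
    rw [transcendental_algebraMap_iff (algebraMap (RatFunc F) L).injective, ← RatFunc.algebraMap_X]
    exact (transcendental_algebraMap_iff (IsFractionRing.injective _ _)).mpr
      (Polynomial.transcendental_X F)
  have halg : Algebra.IsAlgebraic F⟮t⟯ L := by
    letI := (RatFunc.algEquivOfTranscendental t htr).toRingEquiv.toRingHom.toAlgebra
    haveI : IsScalarTower (RatFunc F) F⟮t⟯ L := IsScalarTower.of_algebraMap_eq' (by
      refine IsLocalization.ringHom_ext (nonZeroDivisors F[X]) (Polynomial.ringHom_ext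
        (fun a ↦ ?_) ?_)
      · change algebraMap (RatFunc F) L (algebraMap F[X] (RatFunc F) (C a)) =
          ((RatFunc.algEquivOfTranscendental t htr (algebraMap F[X] (RatFunc F) (C a)) : F⟮t⟯) : L)
        rw [RatFunc.algEquivOfTranscendental_algebraMap, aeval_C,
          show (C a : F[X]) = algebraMap F F[X] a from rfl, ← IsScalarTower.algebraMap_apply,
          ← IsScalarTower.algebraMap_apply]
        rfl
      · change algebraMap (RatFunc F) L (algebraMap F[X] (RatFunc F) X) =
          ((RatFunc.algEquivOfTranscendental t htr (algebraMap F[X] (RatFunc F) X) : F⟮t⟯) : L)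
        rw [RatFunc.algEquivOfTranscendental_algebraMap, aeval_X, RatFunc.algebraMap_X]
        rfl)
    exact Algebra.IsAlgebraic.tower_top (K := RatFunc F) F⟮t⟯
  by_cases hE : W.IsElliptic
  · haveI : (W⁄L).IsElliptic := inferInstanceAs (W.map (algebraMap F L)).IsElliptic
    obtain ⟨y, hy⟩ := Torsion.exists_point_of_X (W := W⁄L) t
    exact ⟨t, y, .inl hy, htr, halg⟩
  · exact ⟨t, 0, .inr hE, htr, halg⟩

/-- `π² - a π + q = 0` on the torsion prime to the characteristic. -/
theorem frob_quadratic {n : ℕ} (hn : (n : F) ≠ 0) {P : (W⁄K).Point} (hP : n • P = 0) :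
    frobPt W K (frobPt W K P) - W.traceOfFrobenius • frobPt W K P + (qq : ℤ) • P = 0 := by
  obtain ⟨t, y, hy, htr, halg⟩ := exists_system W
  have hG := hy.resolve_right (not_not.mpr inferInstance)
  have h := comb_eq_zero_of_torsion W hG htr
    (IsAlgClosed.lift : K →ₐ[F] AlgebraicClosure (RatFunc F)) hn hP
  simp only [comb, one_smul, neg_smul] at h
  rw [← h]
  abel

/-- Frobenius on the `n`-torsion. -/
def frobTorsion (n : ℕ) :
    Submodule.torsionBy ℤ (W⁄K).Point n →ₗ[ZMod n] Submodule.torsionBy ℤ (W⁄K).Point n :=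
  AddMonoidHom.toZModLinearMap n
    (((frobPt W K).comp (Submodule.torsionBy ℤ (W⁄K).Point n).subtype.toAddMonoidHom).codRestrict
      (Submodule.torsionBy ℤ (W⁄K).Point n).toAddSubgroup fun P ↦ by
        have hP : n • (P : (W⁄K).Point) = 0 := Torsion.mem_torsionBy_iff_nsmul.mp P.2
        exact Torsion.mem_torsionBy_iff_nsmul.mpr (by
          rw [← map_nsmul, AddMonoidHom.comp_apply]
          simp [hP]))

omit [IsAlgClosed K] [Algebra.IsAlgebraic F K] [W.IsElliptic] in
lemma coe_frobTorsion (n : ℕ) (P : Submodule.torsionBy ℤ (W⁄K).Point n) :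
    ((frobTorsion W n P : Submodule.torsionBy ℤ (W⁄K).Point n) : (W⁄K).Point) =
      frobPt W K (P : (W⁄K).Point) := rfl

omit [Fintype F] [IsAlgClosed K] [Algebra.IsAlgebraic F K] [W.IsElliptic] in
lemma dvd_of_zsmul_eq_zero {p : ℕ} [hp : Fact p.Prime] {z : (W⁄K).Point} (hz : p • z = 0)
    (hz0 : z ≠ 0) {N : ℤ} (hN : N • z = 0) : (p : ℤ) ∣ N := by
  rw [← addOrderOf_eq_prime hz hz0]
  exact addOrderOf_dvd_iff_zsmul_eq_zero.mpr hN

omit [Fintype F] [IsAlgClosed K] [Algebra.IsAlgebraic F K] [W.IsElliptic] in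
lemma exists_nsmul_order {p : ℕ} {z : (W⁄K).Point} (k : ℕ) (hz : p ^ k • z = 0) (hz0 : z ≠ 0) :
    ∃ i, p ^ i • z ≠ 0 ∧ p • (p ^ i • z) = 0 := by
  induction k with
  | zero => exact absurd (by simpa using hz) hz0
  | succ k ih =>
    by_cases h : p ^ k • z = 0
    · exact ih h
    · exact ⟨k, h, by rwa [← mul_nsmul', ← pow_succ']⟩

/-- Frobenius on `E[p]` is not a scalar different from `a / 2`. -/
lemma dvd_of_scalar {p : ℕ} [hp : Fact p.Prime] (hpF : (p : F) ≠ 0) (lam : ℤ)
    (hlam : ∀ P : (W⁄K).Point, p • P = 0 → frobPt W K P = lam • P) :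
    (p : ℤ) ∣ W.traceOfFrobenius - 2 * lam := by
  by_contra hnd
  obtain ⟨t, y, hy, htr, halg⟩ := exists_system W
  have hG := hy.resolve_right (not_not.mpr inferInstance)
  haveI : (W⁄K).IsElliptic := inferInstanceAs (W.map (algebraMap F K)).IsElliptic
  set a := W.traceOfFrobenius
  have hcard : ∀ k : ℕ, Nat.card {P : (W⁄K).Point // p ^ k • P = 0} = (p ^ k) ^ 2 := fun k ↦
    Torsion.card_ker_nsmul (by
      rw [Nat.cast_pow, ← map_natCast (algebraMap F K)]
      exact pow_ne_zero _ ((_root_.map_ne_zero _).mpr hpF))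
  obtain ⟨z, hzp, hz0⟩ : ∃ z : (W⁄K).Point, p • z = 0 ∧ z ≠ 0 := by
    by_contra hall
    push Not at hall
    have := hcard 1
    rw [pow_one] at this
    haveI : Subsingleton {P : (W⁄K).Point // p • P = 0} :=
      ⟨fun P Q ↦ Subtype.ext ((hall _ P.2).trans (hall _ Q.2).symm)⟩
    have hle := (Finite.card_le_one_iff_subsingleton (α := {P : (W⁄K).Point // p • P = 0})).mpr
      inferInstance
    have := Nat.pow_le_pow_left hp.out.two_le 2
    omega
  have hroot : (p : ℤ) ∣ lam ^ 2 - a * lam + qq := by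
    refine dvd_of_zsmul_eq_zero W hzp hz0 ?_
    have h := frob_quadratic W hpF hzp
    rw [hlam z hzp, map_zsmul, hlam z hzp] at h
    rw [← h, add_smul, sub_smul, sq, mul_smul, mul_smul]
  have hlt : a ^ 2 < 4 * qq := by
    refine lt_of_le_of_ne (sq_trace_le W hG htr) fun he ↦ hnd ?_
    obtain ⟨r, hr⟩ : (2 : ℤ) ∣ a := Int.prime_two.dvd_of_dvd_pow (n := 2) ⟨2 * qq, by rw [he]; ring⟩
    have h2 : (p : ℤ) ∣ (lam - r) ^ 2 := by
      have : (qq : ℤ) = r ^ 2 := by rw [hr] at he; linarith
      rw [this, hr] at hroot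
      convert hroot using 1; ring
    have := (Nat.prime_iff_prime_int.mp hp.out).dvd_of_dvd_pow h2
    rw [hr]
    obtain ⟨c, hc⟩ := this
    exact ⟨-2 * c, by linear_combination -2 * hc⟩
  have hhensel : ∀ k : ℕ, ∃ s : ℤ, (p : ℤ) ∣ s - lam ∧ ((p : ℤ) ^ (k + 1)) ∣ s ^ 2 - a * s + qq := by
    intro k
    induction k with
    | zero => exact ⟨lam, by simp, by simpa using hroot⟩
    | succ k ih =>
      obtain ⟨s, hs, c, hc⟩ := ih
      have hu : IsCoprime (2 * s - a) (p : ℤ) := by
        refine ((Nat.prime_iff_prime_int.mp hp.out).coprime_iff_not_dvd.mpr fun h ↦ hnd ?_).symm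
        obtain ⟨c₁, hc₁⟩ := hs
        obtain ⟨c₂, hc₂⟩ := h
        exact ⟨2 * c₁ - c₂, by linear_combination 2 * hc₁ - hc₂⟩
      obtain ⟨u, v, huv⟩ := hu
      refine ⟨s + (p : ℤ) ^ (k + 1) * (-c * u), ?_, ?_⟩
      · rw [add_sub_right_comm]
        exact dvd_add hs (dvd_mul_of_dvd_left (dvd_pow_self _ k.succ_ne_zero) _)
      · refine ⟨c * v + (p : ℤ) ^ k * (c * u) ^ 2, ?_⟩
        linear_combination hc - (p : ℤ) ^ (k + 1) * c * huv
  set B : ℕ := 1 + a.natAbs + qq
  obtain ⟨j, hj, hj1⟩ : ∃ j, B < p ^ j ∧ 0 < j :=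
    ⟨B + 1, (Nat.lt_succ_self B).trans (Nat.lt_pow_self hp.out.one_lt), Nat.succ_pos _⟩
  set M := p ^ j with hM
  obtain ⟨k, hk⟩ : ∃ k, 2 * j = k + 1 := ⟨2 * j - 1, by omega⟩
  obtain ⟨s, hs, hsroot⟩ := hhensel k
  rw [← hk] at hsroot
  have hscal : ∀ P : (W⁄K).Point, p ^ (2 * j) • P = 0 → frobPt W K P = s • P := by
    intro P hP
    by_contra hne
    set Y := frobPt W K P - s • P
    have hY0 : Y ≠ 0 := fun h ↦ hne (sub_eq_zero.mp h)
    have hYk : p ^ (2 * j) • Y = 0 := by
      rw [nsmul_sub, ← map_nsmul, hP, _root_.map_zero, smul_comm, hP, smul_zero, sub_zero]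
    have hpk : ((p ^ (2 * j) : ℕ) : F) ≠ 0 := by rw [Nat.cast_pow]; exact pow_ne_zero _ hpF
    have hq := frob_quadratic W hpk hP
    obtain ⟨N, hN⟩ := hsroot
    have hYeq : frobPt W K Y = (a - s) • Y := by
      have h0 : ((p : ℤ) ^ (2 * j) * N) • P = 0 := by
        rw [mul_comm, mul_smul, ← Nat.cast_pow, natCast_zsmul, hP, smul_zero]
      rw [← hN, add_smul, sub_smul, mul_smul, sq, mul_smul] at h0
      simp only [Y, map_sub, map_zsmul, sub_smul, smul_sub]
      linear_combination (norm := module) hq - h0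
    obtain ⟨i, hi0, hi⟩ := exists_nsmul_order W (2 * j) hYk hY0
    have h1 := hlam _ hi
    rw [map_nsmul, hYeq, smul_comm, ← sub_eq_zero, ← sub_smul] at h1
    have h2 := dvd_of_zsmul_eq_zero W hi hi0 h1
    refine hnd ?_
    obtain ⟨c₁, hc₁⟩ := h2
    obtain ⟨c₂, hc₂⟩ := hs
    first
      | exact ⟨c₁ + c₂, by linear_combination hc₁ + hc₂⟩
      | exact ⟨c₂ - c₁, by linear_combination hc₂ - hc₁⟩
  have hMpos : 0 < M := pow_pos hp.out.pos j
  -- pigeonhole
  obtain ⟨⟨m₁, n₁⟩, hmn₁, ⟨m₂, n₂⟩, hmn₂, hne, he⟩ := Finset.exists_ne_map_eq_of_card_lt_of_maps_to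
    (s := Finset.range (M + 1) ×ˢ Finset.range (M + 1))
    (t := (Finset.univ : Finset (Fin (M ^ 2))))
    (f := fun x : ℕ × ℕ ↦ (⟨(((x.1 : ℤ) + x.2 * s) % (M ^ 2 : ℕ)).toNat, by
      have h1 := Int.emod_lt_of_pos ((x.1 : ℤ) + x.2 * s) (b := ((M ^ 2 : ℕ) : ℤ))
        (by exact_mod_cast pow_pos hMpos 2)
      have := pow_pos hMpos 2
      omega⟩ : Fin (M ^ 2)))
    (by simp [Finset.card_product]; nlinarith) (fun x _ ↦ Finset.mem_univ _)
  simp only [Finset.mem_product, Finset.mem_range] at hmn₁ hmn₂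
  have hM2 : (0 : ℤ) < ((M ^ 2 : ℕ) : ℤ) := by exact_mod_cast pow_pos hMpos 2
  have he' : ((M ^ 2 : ℕ) : ℤ) ∣ ((m₁ : ℤ) - m₂) + ((n₁ : ℤ) - n₂) * s := by
    have := congrArg Fin.val he
    simp only at this
    have h := congrArg (fun x : ℕ ↦ (x : ℤ)) this
    simp only [Int.toNat_of_nonneg (Int.emod_nonneg _ hM2.ne')] at h
    have := Int.ModEq.dvd h.symm
    convert this using 1; ring
  set m : ℤ := (m₁ : ℤ) - m₂
  set n : ℤ := (n₁ : ℤ) - n₂
  have hmn : ¬(m = 0 ∧ n = 0) := fun h ↦ hne (by simp only [Prod.mk.injEq]; omega)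
  set D := ht W t (comb W m n 0 (Point.some t y hG))
  have hD : (D : ℤ) = m ^ 2 + n ^ 2 * qq + m * n * a := by
    simp only [D]; rw [ht_comb W hG htr]; ring
  have hDpos : D ≠ 0 := by
    intro h0
    rw [h0, Nat.cast_zero] at hD
    have h4 : (2 * m + a * n) ^ 2 + (4 * qq - a ^ 2) * n ^ 2 = 0 := by linear_combination -4 * hD
    have hn0 : n = 0 := by
      by_contra hn
      have : 0 < (4 * (qq : ℤ) - a ^ 2) * n ^ 2 := mul_pos (by linarith) (by positivity)
      nlinarith [sq_nonneg (2 * m + a * n)]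
    rw [hn0] at h4
    exact hmn ⟨by simpa using h4, hn0⟩
  have hfinite : Finite {P : (W⁄K).Point // p ^ (2 * j) • P = 0} :=
    Nat.finite_of_card_ne_zero (by rw [hcard]; exact pow_ne_zero _ (pow_ne_zero _ hp.out.ne_zero))
  haveI : Finite ↥{P : (W⁄K).Point | p ^ (2 * j) • P = 0} := hfinite
  set H : Finset (W⁄K).Point := (Set.toFinite {P : (W⁄K).Point | p ^ (2 * j) • P = 0}).toFinset
  have hHcard : H.card = (p ^ (2 * j)) ^ 2 := by
    rw [← hcard, ← Nat.card_eq_finsetCard]
    exact Nat.card_congr (Equiv.subtypeEquivRight fun P ↦ by simp [H])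
  have hle := card_le_ht W hG htr
    (IsAlgClosed.lift : K →ₐ[F] AlgebraicClosure (RatFunc F)) (m := m) (k := n) hDpos H
    (fun P hP ↦ by
      have hP' : p ^ (2 * j) • P = 0 := by simpa [H] using hP
      obtain ⟨N, hN⟩ := he'
      simp only [comb, zero_smul, add_zero, hscal P hP', smul_smul, ← add_smul]
      rw [hN, show ((M ^ 2 : ℕ) : ℤ) = ((p ^ (2 * j) : ℕ) : ℤ) by rw [hM, ← pow_mul, mul_comm j],
        mul_comm, mul_smul, natCast_zsmul, hP', smul_zero])
  rw [hHcard, show p ^ (2 * j) = M ^ 2 by rw [hM, ← pow_mul, mul_comm]] at hle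
  have hbound : (D : ℤ) ≤ (B : ℤ) * (M : ℤ) ^ 2 := by
    have hm : |m| ≤ M := by rw [abs_le]; omega
    have hn : |n| ≤ M := by rw [abs_le]; omega
    have hmn' : m * n * a ≤ (M : ℤ) ^ 2 * |a| := by
      refine (le_abs_self _).trans ?_
      rw [abs_mul, abs_mul, sq]
      gcongr
    have hm2 : m ^ 2 ≤ (M : ℤ) ^ 2 := by rw [← sq_abs m]; gcongr
    have hn2 : n ^ 2 ≤ (M : ℤ) ^ 2 := by rw [← sq_abs n]; gcongr
    simp only [B]
    push_cast [Int.natCast_natAbs]
    nlinarith
  have hle' : ((M : ℤ) ^ 2) ^ 2 ≤ (D : ℤ) := by exact_mod_cast hle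
  have hBM : (B : ℤ) < (M : ℤ) := by exact_mod_cast hj
  have h1M : (1 : ℤ) ≤ M := by exact_mod_cast hMpos
  have hB2 : (B : ℤ) < (M : ℤ) ^ 2 := by nlinarith
  have := mul_lt_mul_of_pos_right hB2 (show (0 : ℤ) < (M : ℤ) ^ 2 by positivity)
  rw [← sq] at this
  linarith

/-- On `E[p]` Frobenius has trace `a` and determinant `q`. -/
theorem trace_det_frobTorsion {p : ℕ} [hp : Fact p.Prime] (hpF : (p : F) ≠ 0) :
    LinearMap.trace (ZMod p) _ (frobTorsion W (K := K) p) = (W.traceOfFrobenius : ZMod p) ∧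
      LinearMap.det (frobTorsion W (K := K) p) = (qq : ZMod p) := by
  haveI : (W⁄K).IsElliptic := inferInstanceAs (W.map (algebraMap F K)).IsElliptic
  have hpK : (p : K) ≠ 0 := by
    rw [← map_natCast (algebraMap F K)]; exact (_root_.map_ne_zero _).mpr hpF
  haveI := Torsion.finite_torsionBy (W := W) (K := K) hpK
  haveI : Module.Finite (ZMod p) (Submodule.torsionBy ℤ (W⁄K).Point p) := Module.Finite.of_finite
  let b := Module.finBasisOfFinrankEq (ZMod p) (Submodule.torsionBy ℤ (W⁄K).Point p)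
    (Torsion.finrank_torsionBy (W := W) (K := K) hpK)
  set T := frobTorsion W (K := K) p
  set M := LinearMap.toMatrix b b T with hMdef
  set a := (W.traceOfFrobenius : ZMod p)
  have e : ∀ (x : Submodule.torsionBy ℤ (W⁄K).Point p) (c : ℤ),
      (((c : ZMod p) • x : Submodule.torsionBy ℤ (W⁄K).Point p) : (W⁄K).Point) =
        c • (x : (W⁄K).Point) := fun x c ↦ by
    rw [Int.cast_smul_eq_zsmul]; rfl
  have hT : T * T - a • T + (qq : ZMod p) • (1 : Module.End (ZMod p) _) = 0 := by
    refine LinearMap.ext fun P ↦ Subtype.ext ?_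
    have h := frob_quadratic W hpF (Torsion.mem_torsionBy_iff_nsmul.mp P.2)
    rw [show ((qq : ℕ) : ZMod p) = (((qq : ℕ) : ℤ) : ZMod p) by push_cast; rfl]
    simp only [T, a, LinearMap.add_apply, LinearMap.sub_apply, LinearMap.smul_apply,
      Module.End.mul_apply, Module.End.one_apply, LinearMap.zero_apply, Submodule.coe_add,
      Submodule.coe_sub, Submodule.coe_zero, e, coe_frobTorsion]
    exact h
  have hM : M * M - a • M + (qq : ZMod p) • 1 = 0 := by
    have := congrArg (LinearMap.toMatrix b b) hT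
    simpa [hMdef, LinearMap.toMatrix_mul, Module.End.one_eq_id] using this
  rw [LinearMap.trace_eq_matrix_trace (ZMod p) b, ← LinearMap.det_toMatrix b]
  have hCH : M * M = M.trace • M - M.det • 1 := by
    ext i j
    fin_cases i <;> fin_cases j <;>
      simp [Matrix.mul_apply, Fin.sum_univ_two, Matrix.trace_fin_two, Matrix.det_fin_two] <;> ring
  have hdiff : (M.trace - a) • M = (M.det - qq) • (1 : Matrix (Fin 2) (Fin 2) (ZMod p)) := by
    rw [hCH] at hM
    linear_combination (norm := module) hM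
  by_cases htra : M.trace = a
  · refine ⟨htra, ?_⟩
    rw [htra, sub_self, zero_smul] at hdiff
    have := congrFun (congrFun hdiff.symm 0) 0
    simp [sub_eq_zero] at this
    exact this
  exfalso
  obtain ⟨c, hc⟩ : ∃ c : ZMod p, M = c • (1 : Matrix (Fin 2) (Fin 2) (ZMod p)) :=
    ⟨(M.trace - a)⁻¹ * (M.det - qq), by
      rw [mul_smul, ← hdiff, smul_smul, inv_mul_cancel₀ (sub_ne_zero.mpr htra), one_smul]⟩
  have hTc : ∀ P : (W⁄K).Point, p • P = 0 → frobPt W K P = (c.val : ℤ) • P := by
    intro P hP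
    have hc' : T = c • (1 : Module.End (ZMod p) _) := by
      refine (LinearMap.toMatrix b b).injective ?_
      rw [← hMdef, hc]
      simp [Module.End.one_eq_id]
    have := congrArg Subtype.val
      (LinearMap.congr_fun hc' ⟨P, Torsion.mem_torsionBy_iff_nsmul.mpr hP⟩)
    simp only [T, coe_frobTorsion] at this
    rw [this, LinearMap.smul_apply, Module.End.one_apply]
    conv_lhs => rw [show c = (((c.val : ℕ) : ℤ) : ZMod p) by simp]
    exact e _ _
  have h := dvd_of_scalar W hpF (c.val : ℤ) hTc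
  rw [← ZMod.intCast_zmod_eq_zero_iff_dvd] at h
  refine htra ?_
  rw [hc, Matrix.trace_smul, Matrix.trace_one, Fintype.card_fin, smul_eq_mul]
  push_cast [ZMod.natCast_zmod_val] at h
  linear_combination -h

end Torsion

end FLTAgent.FrobTrace

end
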