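import Fermat.Agent.Torsion.SumSub
import Mathlib.FieldTheory.IsAlgClosed.AlgebraicClosure
import Mathlib.FieldTheory.IsAlgClosed.Basic
import Mathlib.RingTheory.PrincipalIdealDomain
import Mathlib.RingTheory.Algebraic.Integral

/-!
Projective vectors of polynomials in reduced form, and their degrees.
-/

set_option autoImplicit false

noncomputable section

open Polynomial

namespace FLTAgent.FrobTrace

variable {F : Type*} [Field F] {n : ℕ}

/-- A primitive vector of polynomials of degree `D`. -/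
structure IsRed (v : Fin n → F[X]) (D : ℕ) : Prop where
  prim : ∀ r : AlgebraicClosure F, (fun i ↦ aeval r (v i)) ≠ 0
  le : ∀ i, (v i).natDegree ≤ D
  top : (fun i ↦ (v i).coeff D) ≠ 0

lemma IsRed.exists_bezout {v : Fin n → F[X]} {D : ℕ} (h : IsRed v D) :
    ∃ r : Fin n → F[X], ∑ i, r i * v i = 1 := by
  obtain ⟨g, hg⟩ : (Ideal.span (Set.range v)).IsPrincipal := inferInstance
  have hdvd : ∀ i, g ∣ v i := fun i ↦ by
    rw [← Ideal.mem_span_singleton, ← Ideal.submodule_span_eq, ← hg]
    exact Ideal.subset_span ⟨i, rfl⟩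
  have hunit : IsUnit g := by
    by_contra hu
    obtain ⟨r, hr⟩ : ∃ r : AlgebraicClosure F, aeval r g = 0 := by
      by_cases h0 : g = 0
      · exact ⟨0, by rw [h0, map_zero]⟩
      · exact IsAlgClosed.exists_aeval_eq_zero _ g fun hd ↦
          hu (isUnit_iff_degree_eq_zero.mpr hd)
    refine h.prim r (funext fun i ↦ ?_)
    obtain ⟨c, hc⟩ := hdvd i
    rw [Pi.zero_apply, hc, map_mul, hr, zero_mul]
  have h1 : (1 : F[X]) ∈ Ideal.span (Set.range v) := by
    rw [hg, Ideal.submodule_span_eq, Ideal.span_singleton_eq_top.mpr hunit]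
    trivial
  obtain ⟨r, hr⟩ := Ideal.mem_span_range_iff_exists_fun.mp h1
  exact ⟨r, hr⟩

lemma IsRed.eq_of_cross {v w : Fin n → F[X]} {D E : ℕ} (hv : IsRed v D) (hw : IsRed w E)
    (h : ∀ i j, v i * w j = v j * w i) : D = E := by
  obtain ⟨r, hr⟩ := hv.exists_bezout
  obtain ⟨s, hs⟩ := hw.exists_bezout
  have hwv : ∀ i, w i = (∑ j, r j * w j) * v i := fun i ↦ by
    rw [Finset.sum_mul]
    nth_rw 1 [← one_mul (w i)]
    rw [← hr, Finset.sum_mul]
    exact Finset.sum_congr rfl fun j _ ↦ by linear_combination r j * h j i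
  have hunit : IsUnit (∑ j, r j * w j) := by
    refine IsUnit.of_mul_eq_one (∑ j, s j * v j) ?_
    rw [← hs, Finset.mul_sum]
    exact Finset.sum_congr rfl fun i _ ↦ by linear_combination -s i * hwv i
  obtain ⟨c, hc, hc'⟩ := isUnit_iff.mp hunit
  simp only [← hc'] at hwv
  have hc0 : c ≠ 0 := hc.ne_zero
  refine le_antisymm ?_ ?_
  · by_contra hlt
    refine hv.top (funext fun i ↦ ?_)
    have h2 : (w i).coeff D = 0 :=
      coeff_eq_zero_of_natDegree_lt ((hw.le i).trans_lt (not_le.mp hlt))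
    rw [hwv i, coeff_C_mul] at h2
    exact (mul_eq_zero.mp h2).resolve_left hc0
  · by_contra hlt
    refine hw.top (funext fun i ↦ ?_)
    rw [hwv i, coeff_C_mul, coeff_eq_zero_of_natDegree_lt ((hv.le i).trans_lt (not_le.mp hlt)),
      mul_zero, Pi.zero_apply]

/-- Proportional values at a transcendental element force equal degrees. -/
lemma IsRed.unique {L : Type*} [Field L] [Algebra F L] {t : L} (ht : Transcendental F t)
    {v w : Fin n → F[X]} {D E : ℕ} (hv : IsRed v D) (hw : IsRed w E) {c : L}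
    (h : (fun i ↦ aeval t (v i)) = c • fun i ↦ aeval t (w i)) : D = E := by
  refine hv.eq_of_cross hw fun i j ↦ transcendental_iff_injective.mp ht ?_
  have hi := congrFun h i
  have hj := congrFun h j
  simp only [Pi.smul_apply, smul_eq_mul] at hi hj
  rw [map_mul, map_mul, hi, hj]
  ring

lemma isRed_const {v : Fin n → F} (hv : v ≠ 0) : IsRed (fun i ↦ C (v i)) 0 where
  prim r h := hv <| funext fun i ↦ by simpa using congrFun h i
  le i := (natDegree_C _).le
  top h := hv <| funext fun i ↦ by simpa using congrFun h i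

/-- The product of two binary linear forms. -/
def symPair {R : Type*} [CommRing R] (a b : Fin 2 → R) : Fin 3 → R :=
  ![a 0 * b 0, a 0 * b 1 + a 1 * b 0, a 1 * b 1]

lemma symPair_ne_zero {R : Type*} [CommRing R] [IsDomain R] {a b : Fin 2 → R} (ha : a ≠ 0)
    (hb : b ≠ 0) : symPair a b ≠ 0 := by
  intro h
  have h0 : a 0 * b 0 = 0 := congrFun h 0
  have h1 : a 0 * b 1 + a 1 * b 0 = 0 := congrFun h 1
  have h2 : a 1 * b 1 = 0 := congrFun h 2
  rcases mul_eq_zero.mp h0 with e | e
  · have ha1 : a 1 ≠ 0 := fun e' ↦ ha (funext fun i ↦ by fin_cases i <;> simpa)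
    refine hb (funext fun i ↦ ?_)
    fin_cases i
    · simpa [e, ha1] using h1
    · simpa [ha1] using h2
  · have hb1 : b 1 ≠ 0 := fun e' ↦ hb (funext fun i ↦ by fin_cases i <;> simpa)
    refine ha (funext fun i ↦ ?_)
    fin_cases i
    · simpa [e, hb1] using h1
    · simpa [hb1] using h2

lemma map_symPair {R S G : Type*} [CommRing R] [CommRing S] [FunLike G R S] [RingHomClass G R S]
    (g : G) (a b : Fin 2 → R) :
    (fun i ↦ g (symPair a b i)) = symPair (fun i ↦ g (a i)) (fun i ↦ g (b i)) := by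
  funext i
  fin_cases i <;> simp [symPair]

theorem IsRed.symPair {a b : Fin 2 → F[X]} {D E : ℕ} (ha : IsRed a D) (hb : IsRed b E) :
    IsRed (symPair a b) (D + E) where
  prim r := by
    rw [map_symPair]
    exact symPair_ne_zero (ha.prim r) (hb.prim r)
  le i := by
    have h : ∀ j k, (a j * b k).natDegree ≤ D + E := fun j k ↦
      natDegree_mul_le.trans (add_le_add (ha.le j) (hb.le k))
    fin_cases i
    · exact h 0 0
    · exact (natDegree_add_le _ _).trans (max_le (h 0 1) (h 1 0))
    · exact h 1 1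
  top := by
    have h : ∀ j k, (a j * b k).coeff (D + E) = (a j).coeff D * (b k).coeff E := fun j k ↦
      coeff_mul_add_eq_of_natDegree_le (ha.le j) (hb.le k)
    convert symPair_ne_zero ha.top hb.top using 1
    funext i
    fin_cases i <;> simp [FrobTrace.symPair, h]

section Phi

variable (W : WeierstrassCurve F)

/-- The addition-and-subtraction map with coefficients in `F`. -/
def phi {R : Type*} [CommRing R] [Algebra F R] (v : Fin 3 → R) : Fin 3 → R :=
  ![v 0 ^ 2 - algebraMap F R W.b₄ * (v 0 * v 2) - algebraMap F R W.b₆ * (v 1 * v 2)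
      - algebraMap F R W.b₈ * v 2 ^ 2,
    2 * (v 1 * v 0) + algebraMap F R W.b₂ * (v 0 * v 2) + algebraMap F R W.b₄ * (v 1 * v 2)
      + algebraMap F R W.b₆ * v 2 ^ 2,
    v 1 ^ 2 - 4 * (v 0 * v 2)]

lemma map_phi {R S : Type*} [CommRing R] [CommRing S] [Algebra F R] [Algebra F S]
    (g : R →ₐ[F] S) (v : Fin 3 → R) : (fun i ↦ g (phi W v i)) = phi W (fun i ↦ g (v i)) := by
  funext i
  fin_cases i <;> simp [phi, map_ofNat]

lemma phi_eq_addSubVal {K : Type*} [Field K] [Algebra F K] (v : Fin 3 → K) :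
    phi W v = Torsion.addSubVal (W.map (algebraMap F K)).toAffine v := by
  funext i
  fin_cases i <;> simp [phi, Torsion.addSubVal, mul_assoc]

lemma phi_smul {K : Type*} [CommRing K] [Algebra F K] (c : K) (v : Fin 3 → K) :
    phi W (c • v) = c ^ 2 • phi W v := by
  funext i
  fin_cases i <;> simp [phi] <;> ring

variable [W.IsElliptic]

lemma phi_ne_zero {K : Type*} [Field K] [Algebra F K] {v : Fin 3 → K} (hv : v ≠ 0) :
    phi W v ≠ 0 := by
  rw [phi_eq_addSubVal]
  exact Torsion.addSubVal_ne_zero _ hv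

theorem IsRed.phi {v : Fin 3 → F[X]} {D : ℕ} (h : IsRed v D) : IsRed (phi W v) (2 * D) where
  prim r := by
    rw [map_phi]
    exact phi_ne_zero W (h.prim r)
  le i := by
    have hm : ∀ j k, (v j * v k).natDegree ≤ 2 * D := fun j k ↦
      natDegree_mul_le.trans ((add_le_add (h.le j) (h.le k)).trans_eq (two_mul D).symm)
    have hc : ∀ (c : F) j k, (algebraMap F F[X] c * (v j * v k)).natDegree ≤ 2 * D :=
      fun c j k ↦ (natDegree_C_mul_le c _).trans (hm j k)
    have hn : ∀ (m : ℕ) j k, ((m : F[X]) * (v j * v k)).natDegree ≤ 2 * D := fun m j k ↦ by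
      rw [← map_natCast C]
      exact (natDegree_C_mul_le _ _).trans (hm j k)
    have ha : ∀ {p q : F[X]}, p.natDegree ≤ 2 * D → q.natDegree ≤ 2 * D →
        (p + q).natDegree ≤ 2 * D ∧ (p - q).natDegree ≤ 2 * D := fun hp hq ↦
      ⟨(natDegree_add_le _ _).trans (max_le hp hq), (natDegree_sub_le _ _).trans (max_le hp hq)⟩
    fin_cases i <;> simp only [FrobTrace.phi, sq]
    · exact (ha (ha (ha (hm 0 0) (hc _ 0 2)).2 (hc _ 1 2)).2 (hc _ 2 2)).2
    · exact (ha (ha (ha (by simpa using hn 2 1 0) (hc _ 0 2)).1 (hc _ 1 2)).1 (hc _ 2 2)).1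
    · exact (ha (hm 1 1) (by simpa using hn 4 0 2)).2
  top := by
    have hm : ∀ j k, (v j * v k).coeff (2 * D) = (v j).coeff D * (v k).coeff D := fun j k ↦ by
      rw [two_mul]
      exact coeff_mul_add_eq_of_natDegree_le (h.le j) (h.le k)
    convert phi_ne_zero W (K := F) h.top using 1
    funext i
    fin_cases i <;>
      simp [FrobTrace.phi, sq, hm, coeff_C_mul, ← C_eq_natCast, ← map_ofNat C]

end Phi

section Comp

/-- The homogenised value of a polynomial of degree at most `D`. -/
def homEval {R : Type*} [CommRing R] [Algebra F R] (A : F[X]) (D : ℕ) (a : Fin 2 → R) : R :=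
  ∑ i ∈ Finset.range (D + 1), algebraMap F R (A.coeff i) * (a 0 ^ i * a 1 ^ (D - i))

/-- Composition of rational functions given by pairs. -/
def homComp {R : Type*} [CommRing R] [Algebra F R] (A : Fin 2 → F[X]) (D : ℕ) (a : Fin 2 → R) :
    Fin 2 → R := fun i ↦ homEval (A i) D a

lemma map_homEval {R S : Type*} [CommRing R] [CommRing S] [Algebra F R] [Algebra F S]
    (g : R →ₐ[F] S) (A : F[X]) (D : ℕ) (a : Fin 2 → R) :
    g (homEval A D a) = homEval A D fun i ↦ g (a i) := by
  simp [homEval, map_sum]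

lemma homEval_eq {K : Type*} [Field K] [Algebra F K] (A : F[X]) (D : ℕ) (hA : A.natDegree ≤ D)
    {a : Fin 2 → K} (hb : a 1 ≠ 0) : homEval A D a = a 1 ^ D * aeval (a 0 / a 1) A := by
  rw [aeval_eq_sum_range' (n := D + 1) (by omega), Finset.mul_sum, homEval]
  refine Finset.sum_congr rfl fun i hi ↦ ?_
  rw [Algebra.smul_def, div_pow, ← pow_sub_mul_pow (a 1) (Finset.mem_range_succ_iff.mp hi)]
  field_simp

lemma homEval_infty {K : Type*} [Field K] [Algebra F K] (A : F[X]) (D : ℕ) {a : Fin 2 → K}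
    (hb : a 1 = 0) : homEval A D a = algebraMap F K (A.coeff D) * a 0 ^ D := by
  rw [homEval, Finset.sum_eq_single D]
  · simp
  · intro i hi hne
    rw [hb, zero_pow (by have := Finset.mem_range.mp hi; omega)]
    simp
  · simp

lemma homComp_ne_zero {A : Fin 2 → F[X]} {D : ℕ} (hA : IsRed A D) {K : Type*} [Field K]
    [Algebra F K] {a : Fin 2 → K} (ha : a ≠ 0) : homComp A D a ≠ 0 := by
  intro h
  by_cases hb : a 1 = 0
  · have ha0 : a 0 ≠ 0 := fun h0 ↦ ha (funext fun i ↦ by fin_cases i <;> simpa)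
    refine hA.top (funext fun i ↦ ?_)
    have hi : homEval (A i) D a = 0 := congrFun h i
    rw [homEval_infty _ _ hb, mul_eq_zero] at hi
    exact (map_eq_zero _).mp (hi.resolve_right (pow_ne_zero _ ha0))
  · have hroot : ∀ i, aeval (a 0 / a 1) (A i) = 0 := fun i ↦ by
      have hi : homEval (A i) D a = 0 := congrFun h i
      rw [homEval_eq _ _ (hA.le i) hb] at hi
      exact (mul_eq_zero.mp hi).resolve_left (pow_ne_zero _ hb)
    obtain ⟨r, hr⟩ := hA.exists_bezout
    have := congrArg (aeval (a 0 / a 1)) hr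
    simp [map_sum, hroot] at this

theorem IsRed.homComp {A a : Fin 2 → F[X]} {D E : ℕ} (hA : IsRed A D) (ha : IsRed a E) :
    IsRed (homComp A D a) (D * E) where
  prim r := by
    have h : (fun i ↦ aeval r (FrobTrace.homComp A D a i)) =
        FrobTrace.homComp A D fun i ↦ aeval r (a i) := funext fun i ↦ map_homEval _ _ _ _
    rw [h]
    exact homComp_ne_zero hA (ha.prim r)
  le i := by
    change (∑ k ∈ Finset.range (D + 1), C ((A i).coeff k) * (a 0 ^ k * a 1 ^ (D - k))).natDegree ≤ _
    apply natDegree_sum_le_of_forall_le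
    intro k hk
    refine (natDegree_C_mul_le ((A i).coeff k) (a 0 ^ k * a 1 ^ (D - k))).trans
      (natDegree_mul_le.trans ?_)
    refine (add_le_add (natDegree_pow_le_of_le k (ha.le 0))
      (natDegree_pow_le_of_le (D - k) (ha.le 1))).trans ?_
    rw [← add_mul, Nat.add_sub_cancel' (Finset.mem_range_succ_iff.mp hk)]
  top := by
    convert homComp_ne_zero hA (K := F) ha.top using 1
    funext i
    simp only [FrobTrace.homComp, homEval, finsetSum_coeff]
    refine Finset.sum_congr rfl fun k hk ↦ ?_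
    have e : D * E = k * E + (D - k) * E := by
      rw [← add_mul, Nat.add_sub_cancel' (Finset.mem_range_succ_iff.mp hk)]
    rw [← C_eq_algebraMap, coeff_C_mul, e, coeff_mul_add_eq_of_natDegree_le
      (natDegree_pow_le_of_le k (ha.le 0)) (natDegree_pow_le_of_le (D - k) (ha.le 1)),
      coeff_pow_of_natDegree_le (ha.le 0), coeff_pow_of_natDegree_le (ha.le 1)]
    simp

end Comp

/-- A nonzero vector of polynomials is proportional to a reduced one. -/
lemma exists_isRed (v : Fin n → F[X]) (hv : v ≠ 0) :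
    ∃ (g : F[X]) (w : Fin n → F[X]) (D : ℕ), g ≠ 0 ∧ (∀ i, v i = g * w i) ∧ IsRed w D := by
  classical
  obtain ⟨g, hg⟩ : (Ideal.span (Set.range v)).IsPrincipal := inferInstance
  have hmem : ∀ i, v i ∈ Ideal.span {g} := fun i ↦ by
    rw [← Ideal.submodule_span_eq, ← hg]; exact Ideal.subset_span ⟨i, rfl⟩
  choose w hw using fun i ↦ Ideal.mem_span_singleton.mp (hmem i)
  have hg0 : g ≠ 0 := fun h ↦ hv (funext fun i ↦ by simp [hw i, h])
  obtain ⟨r, hr⟩ := Ideal.mem_span_range_iff_exists_fun.mp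
    (show g ∈ Ideal.span (Set.range v) by rw [hg]; exact Submodule.mem_span_singleton_self g)
  have hb : ∑ i, r i * w i = 1 := mul_left_cancel₀ hg0 <| by
    rw [Finset.mul_sum, mul_one]
    conv_rhs => rw [← hr]
    exact Finset.sum_congr rfl fun i _ ↦ by rw [hw i]; ring
  have hne : w ≠ 0 := fun h ↦ by simp [h] at hb
  have huniv : (Finset.univ.filter fun i ↦ w i ≠ 0).Nonempty := by
    by_contra h
    refine hne (funext fun i ↦ ?_)
    simpa using (Finset.filter_eq_empty_iff.mp (Finset.not_nonempty_iff_eq_empty.mp h))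
      (Finset.mem_univ i)
  obtain ⟨i₀, hi₀, hmax⟩ :=
    Finset.exists_max_image (Finset.univ.filter fun i ↦ w i ≠ 0) (fun i ↦ (w i).natDegree) huniv
  refine ⟨g, w, (w i₀).natDegree, hg0, hw, fun r' h ↦ ?_, fun i ↦ ?_, fun h ↦ ?_⟩
  · have := congrArg (aeval r') hb
    simp only [map_sum, map_mul, map_one] at this
    simp [fun i ↦ congrFun h i] at this
  · by_cases hi : w i = 0
    · simp [hi]
    · exact hmax i (by simp [hi])
  · exact (leadingCoeff_ne_zero.mpr (Finset.mem_filter.mp hi₀).2) (congrFun h i₀)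

end FLTAgent.FrobTrace

end
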